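/-
S45lib / Tower / Level  (helper1)  --  Project J, (KM) tower step

**The tower of levels `M q^n`** (`q ∤ M`), over `ℚ̄`:

* `lev M q n` : the level `M q^n`, defined recursively (`lev M q (n+1) = lev M q n * q` by `rfl`,
  so `lev M q 1 = M * q`, `lev M q 2 = M * q * q` as in S36lib);
* `FT M q n = FBar (lev M q n)`, `aT M q n : FT n →ₐ FT (n+1)` (the inclusion `α`),
  `jT M q n i hi = j(t^(q^i)) ∈ FT n` (`i ≤ n`);
* `finrank_aT_zero`, `finrank_aT_succ` : `[FT 1 : FT 0] = q + 1`, `[FT (n+2) : FT (n+1)] = q`;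
* `eq_zero_of_eval₂_aT` : `j(t^(q^(n+1)))` is killed by no nonzero polynomial of degree `< q` over
  `α (FT n)` (twist argument of `S36lib/Eis/Degree` after the Atkin–Lehner involution `w_{q^(n+1)}`).
-/
import Mathlib
import Fermat.Agent.S36lib.AL.WQ
import Fermat.Agent.S36lib.Eis.Degree
import Fermat.Agent.S18lib.V.GaussU.LevelFin
import Fermat.Agent.S18lib.V.GaussU.LevelAlg
import Fermat.Agent.S28lib.PsiStep

set_option autoImplicit false
set_option linter.unusedSectionVars false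
set_option linter.unusedVariables false
set_option linter.style.haveILetI false

noncomputable section

namespace Fermat.Agent.S45lib.Tower

open ModularCurve Polynomial Module Fermat.Agent.S18lib Fermat.Agent.S18lib.V Fermat.Agent.S28lib
open Fermat.Agent.LSb.Val Fermat.Agent.S36lib.AL Fermat.Agent.S36lib.Eis

local notation "Qb" => AlgebraicClosure ℚ

/-- the level `M q^n` -/
def lev (M q : ℕ) : ℕ → ℕ
  | 0 => M
  | n + 1 => lev M q n * q

@[simp] theorem lev_zero (M q : ℕ) : lev M q 0 = M := rfl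

theorem lev_succ (M q n : ℕ) : lev M q (n + 1) = lev M q n * q := rfl

theorem lev_eq (M q n : ℕ) : lev M q n = M * q ^ n := by
  induction n with
  | zero => simp
  | succ n ih => rw [lev_succ, ih, pow_succ, mul_assoc]

instance lev_neZero (M q n : ℕ) [NeZero M] [NeZero q] : NeZero (lev M q n) :=
  ⟨by rw [lev_eq]; exact mul_ne_zero (NeZero.ne M) (pow_ne_zero n (NeZero.ne q))⟩

theorem pow_dvd_lev (M q : ℕ) {i n : ℕ} (hi : i ≤ n) : q ^ i ∣ lev M q n := by
  rw [lev_eq]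
  exact Dvd.dvd.mul_left (pow_dvd_pow q hi) M

theorem dvd_lev_succ_of_dvd (M q n : ℕ) {d : ℕ} (hd : d ∣ lev M q n) : d ∣ lev M q (n + 1) :=
  hd.trans (Dvd.intro q rfl)

theorem prime_dvd_lev_succ (M q n : ℕ) : q ∣ lev M q (n + 1) := Dvd.intro_left _ rfl

variable (M q : ℕ) [NeZero M] [NeZero q]

/-- the function field of level `M q^n` over `ℚ̄` -/
abbrev FT (n : ℕ) : Type := FBar (lev M q n)

/-- the inclusion `α : FT n → FT (n+1)` -/
def aT (n : ℕ) : FT M q n →ₐ[Qb] FT M q (n + 1) := alphaL (lev M q n) q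

/-- `j(t^(q^i))` at level `M q^n` -/
def jT (n i : ℕ) (hi : i ≤ n) : FT M q n := jd (lev M q n) (q ^ i) (pow_dvd_lev M q hi)

theorem coe_aT (n : ℕ) (f : FT M q n) :
    ((aT M q n f : FT M q (n + 1)) : LaurentSeries Qb) = (f : LaurentSeries Qb) :=
  coe_inclL (N := lev M q n) (N' := lev M q n * q) (Dvd.intro q rfl) f

theorem aT_injective (n : ℕ) : Function.Injective (aT M q n) := (aT M q n).toRingHom.injective

theorem coe_jT (n i : ℕ) (hi : i ≤ n) :
    ((jT M q n i hi : FT M q n) : LaurentSeries Qb) = qExpand Qb (q ^ i) (jqModC Qb) :=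
  coe_jd_eq (lev M q n) (q ^ i) (pow_dvd_lev M q hi)

theorem aT_jT (n i : ℕ) (hi : i ≤ n) :
    aT M q n (jT M q n i hi) = jT M q (n + 1) i (Nat.le_succ_of_le hi) :=
  Subtype.ext (by rw [coe_aT, coe_jT, coe_jT])

theorem aT_jd (n d : ℕ) [NeZero d] (hd : d ∣ lev M q n) :
    aT M q n (jd (lev M q n) d hd) = jd (lev M q (n + 1)) d (dvd_lev_succ_of_dvd M q n hd) :=
  Subtype.ext (by rw [coe_aT, coe_jd_eq, coe_jd_eq])

/-! ### degrees -/

theorem finite_aT (n : ℕ) :
    letI := (aT M q n).toRingHom.toAlgebra; FiniteDimensional (FT M q n) (FT M q (n + 1)) :=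
  finiteDimensional_levelL (N := lev M q n) (N' := lev M q (n + 1)) (Dvd.intro q rfl)

theorem finrank_aT_zero (hq : q.Prime) (hqM : ¬ q ∣ M) :
    (letI := (aT M q 0).toRingHom.toAlgebra; finrank (FT M q 0) (FT M q 1)) = q + 1 := by
  have h1 := dedekindPsi_mul_finrank_inclL (N := lev M q 0) (N' := lev M q 1) (Dvd.intro q rfl)
  have hpsi : dedekindPsi (lev M q 1) = dedekindPsi (lev M q 0) * (q + 1) :=
    S28lib.Chain.dedekindPsi_mul_prime_of_not_dvd (NeZero.ne M) hq hqM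
  rw [hpsi] at h1
  have hpos : 0 < dedekindPsi (lev M q 0) := Fermat.Agent.ProgramR.BarField.dedekindPsi_pos M
  exact Nat.eq_of_mul_eq_mul_left hpos h1

theorem finrank_aT_succ (hq : q.Prime) (n : ℕ) :
    (letI := (aT M q (n + 1)).toRingHom.toAlgebra; finrank (FT M q (n + 1)) (FT M q (n + 2))) =
      q := by
  have h1 := dedekindPsi_mul_finrank_inclL (N := lev M q (n + 1)) (N' := lev M q (n + 2))
    (Dvd.intro q rfl)
  have hpsi : dedekindPsi (lev M q (n + 2)) = dedekindPsi (lev M q (n + 1)) * q :=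
    S28lib.Chain.dedekindPsi_mul_prime_of_dvd (NeZero.ne (lev M q (n + 1))) hq (prime_dvd_lev_succ M q n)
  rw [hpsi] at h1
  have hpos : 0 < dedekindPsi (lev M q (n + 1)) :=
    Fermat.Agent.ProgramR.BarField.dedekindPsi_pos _
  exact Nat.eq_of_mul_eq_mul_left hpos h1

theorem finrank_aT_lt (hq : q.Prime) (hqM : ¬ q ∣ M) (n : ℕ) :
    (letI := (aT M q n).toRingHom.toAlgebra; finrank (FT M q n) (FT M q (n + 1))) < 2 * q := by
  have h2 := hq.two_le
  rcases n with _ | n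
  · rw [finrank_aT_zero M q hq hqM]; omega
  · rw [finrank_aT_succ M q hq n]; omega

/-! ### the Atkin–Lehner involution `w_{q^n}` of level `M q^n` -/

theorem coprime_pow (hq : q.Prime) (hqM : ¬ q ∣ M) (n : ℕ) : Nat.Coprime M (q ^ n) :=
  Nat.Coprime.pow_right n ((Nat.Prime.coprime_iff_not_dvd hq).mpr hqM).symm

/-- `w_{q^n}` on `FT n` -/
def wT (hq : q.Prime) (hqM : ¬ q ∣ M) (n : ℕ) : FT M q n ≃ₐ[Qb] FT M q n :=
  wQ (lev M q n) M (q ^ n) (lev_eq M q n) (coprime_pow M q hq hqM n)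

theorem wT_jd (hq : q.Prime) (hqM : ¬ q ∣ M) (n : ℕ) (d a b : ℕ) [NeZero d] [NeZero a] [NeZero b]
    (hd : d ∣ M) (hQ : q ^ n = a * b) (hda : d * a ∣ lev M q n) (hdb : d * b ∣ lev M q n) :
    wT M q hq hqM n (jd (lev M q n) (d * a) hda) = jd (lev M q n) (d * b) hdb :=
  wQ_jd (lev M q n) M (q ^ n) (lev_eq M q n) (coprime_pow M q hq hqM n) d a b hd hQ hda hdb

theorem wT_wT (hq : q.Prime) (hqM : ¬ q ∣ M) (n : ℕ) (f : FT M q n) :
    wT M q hq hqM n (wT M q hq hqM n f) = f :=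
  wQ_wQ (lev M q n) M (q ^ n) (lev_eq M q n) (coprime_pow M q hq hqM n) f

theorem jd_congr (N : ℕ) [NeZero N] {d d' : ℕ} [NeZero d] [NeZero d'] (h : d = d') (hd : d ∣ N)
    (hd' : d' ∣ N) : jd N d hd = jd N d' hd' := by
  subst h
  rfl

/-- `w_{q^n} (j(t^(q^i))) = j(t^(q^(n-i)))` -/
theorem wT_jT (hq : q.Prime) (hqM : ¬ q ∣ M) (n i : ℕ) (hi : i ≤ n) :
    wT M q hq hqM n (jT M q n i hi) = jT M q n (n - i) (Nat.sub_le n i) := by
  have hQ : q ^ n = q ^ i * q ^ (n - i) := by rw [← pow_add]; congr 1; omega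
  have hda : 1 * q ^ i ∣ lev M q n := by rw [one_mul]; exact pow_dvd_lev M q hi
  have hdb : 1 * q ^ (n - i) ∣ lev M q n := by
    rw [one_mul]; exact pow_dvd_lev M q (Nat.sub_le n i)
  have h := wT_jd M q hq hqM n 1 (q ^ i) (q ^ (n - i)) (one_dvd M) hQ hda hdb
  rw [jT, jT, jd_congr (lev M q n) (one_mul (q ^ i)).symm (pow_dvd_lev M q hi) hda, h]
  exact jd_congr (lev M q n) (one_mul _) hdb _

/-! ### the top generator has degree `≥ q` over `α (FT n)` -/

/-- the series of `w_{q^(n+1)} (α f)`, `f ∈ FT n`, is a series in `t^q` -/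
theorem coe_wT_aT_mem_range (hq : q.Prime) (hqM : ¬ q ∣ M) (n : ℕ) (f : FT M q n) :
    ((wT M q hq hqM (n + 1) (aT M q n f) : FT M q (n + 1)) : LaurentSeries Qb) ∈
      (qExpand Qb q).fieldRange := by
  set ψ : FT M q n →+* LaurentSeries Qb :=
    ((modularFunctionFieldBar (lev M q (n + 1))).val : FT M q (n + 1) →+* LaurentSeries Qb).comp
      (((wT M q hq hqM (n + 1) : FT M q (n + 1) ≃ₐ[Qb] FT M q (n + 1)) :
        FT M q (n + 1) →+* FT M q (n + 1)).comp
        ((aT M q n : FT M q n →ₐ[Qb] FT M q (n + 1)) : FT M q n →+* FT M q (n + 1))) with hψ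
  have key : ((qExpand Qb q).fieldRange.comap ψ) = ⊤ := by
    apply subfield_eq_top (L := Qb) (lev M q n)
    · intro a
      rw [Subfield.mem_comap, hψ]
      simp only [RingHom.comp_apply, RingHom.coe_coe, AlgHom.commutes, AlgEquiv.commutes]
      refine ⟨HahnSeries.C a, ?_⟩
      rw [qExpand_C]
      exact (Kummer.algebraMap_laurent_eq_C a).symm
    · intro d' _ hd'
      rw [Subfield.mem_comap, hψ]
      simp only [RingHom.comp_apply, RingHom.coe_coe]
      have hd'0 : d' ≠ 0 := NeZero.ne d'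
      have hd'' : d' ∣ M * q ^ n := by rw [← lev_eq]; exact hd'
      haveI : NeZero (q ^ n) := ⟨pow_ne_zero n (NeZero.ne q)⟩
      obtain ⟨d, a, b, hdM, hQ, rfl, hd0, ha0, hb0⟩ := exists_factor_of_dvd M (q ^ n) hd'' hd'0
      haveI : NeZero d := ⟨hd0⟩
      haveI : NeZero a := ⟨ha0⟩
      haveI : NeZero b := ⟨hb0⟩
      haveI : NeZero (b * q) := ⟨mul_ne_zero hb0 (NeZero.ne q)⟩
      have hQ' : q ^ (n + 1) = a * (b * q) := by rw [pow_succ, hQ, mul_assoc]
      have hdb : d * (b * q) ∣ lev M q (n + 1) := by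
        rw [lev_eq, hQ']
        exact Nat.mul_dvd_mul hdM (Dvd.intro_left a rfl)
      have e1 : aT M q n (Fermat.Agent.ProgramR.BarField.jdBar (L := Qb) (lev M q n) (d * a) hd') =
          jd (lev M q (n + 1)) (d * a) (dvd_lev_succ_of_dvd M q n hd') := aT_jd M q n (d * a) hd'
      rw [e1, wT_jd M q hq hqM (n + 1) d a (b * q) hdM hQ' _ hdb]
      refine ⟨qExpand Qb (d * b) (jqModC Qb), ?_⟩
      show qExpand Qb q (qExpand Qb (d * b) (jqModC Qb)) =
        ((jd (lev M q (n + 1)) (d * (b * q)) hdb : FT M q (n + 1)) : LaurentSeries Qb)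
      rw [coe_jd_eq, qExpand_qExpand]
      exact qExpand_congr (by ring) _
  have : f ∈ (qExpand Qb q).fieldRange.comap ψ := by rw [key]; exact Subfield.mem_top f
  exact this

/-- **`j(t^(q^(n+1)))` has degree `≥ q` over `α (FT n)`** -/
theorem eq_zero_of_eval₂_aT (hq : q.Prime) (hqM : ¬ q ∣ M) (n : ℕ) (p : (FT M q n)[X])
    (hdeg : p.natDegree < q)
    (h : p.eval₂ ((aT M q n : FT M q n →ₐ[Qb] FT M q (n + 1)) : FT M q n →+* FT M q (n + 1))
      (jT M q (n + 1) (n + 1) le_rfl) = 0) : p = 0 := by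
  obtain ⟨ζ, hζ⟩ := exists_primitiveRoot_Qb q
  set vw : FT M q (n + 1) →+* LaurentSeries Qb :=
    ((modularFunctionFieldBar (lev M q (n + 1))).val : FT M q (n + 1) →+* LaurentSeries Qb).comp
      ((wT M q hq hqM (n + 1) : FT M q (n + 1) ≃ₐ[Qb] FT M q (n + 1)) :
        FT M q (n + 1) →+* FT M q (n + 1)) with hvw
  set ψ : FT M q n →+* LaurentSeries Qb :=
    vw.comp ((aT M q n : FT M q n →ₐ[Qb] FT M q (n + 1)) : FT M q n →+* FT M q (n + 1)) with hψ
  have hψinj : Function.Injective ψ := ψ.injective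
  apply Polynomial.map_injective ψ hψinj
  rw [Polynomial.map_zero]
  refine eq_zero_of_eval_jqModC hq hζ (p.map ψ) ((natDegree_map_le).trans_lt hdeg) ?_ ?_
  · intro i
    rw [coeff_map]
    obtain ⟨g, hg⟩ := coe_wT_aT_mem_range M q hq hqM n (p.coeff i)
    have e : ψ (p.coeff i) = qExpand Qb q g := hg.symm
    rw [e]
    exact twist_qExpand_of_pow_eq_one ζ q hζ.pow_eq_one g
  · have h1 := Polynomial.hom_eval₂ p
      ((aT M q n : FT M q n →ₐ[Qb] FT M q (n + 1)) : FT M q n →+* FT M q (n + 1)) vw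
      (jT M q (n + 1) (n + 1) le_rfl)
    rw [h, map_zero] at h1
    rw [Polynomial.eval_map]
    have e : vw (jT M q (n + 1) (n + 1) le_rfl) = jqModC Qb := by
      show ((wT M q hq hqM (n + 1) (jT M q (n + 1) (n + 1) le_rfl) : FT M q (n + 1)) :
        LaurentSeries Qb) = _
      rw [wT_jT, coe_jT]
      have : q ^ (n + 1 - (n + 1)) = 1 := by rw [Nat.sub_self, pow_zero]
      rw [qExpand_congr this, qExpand_one_apply]
    rw [e] at h1
    exact h1.symm

end Fermat.Agent.S45lib.Tower
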