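/-
S45lib / Tower / NormFix  (helper2)  --  Project J, item (g) of #h7-H57

**The degeneracy maps of the tower on the fixed fields, their degree and their norms**, at the
general level `lev M q n = M q^n` (generalisation of `S36lib/Norm/DescendInst`, levels `M q → M q²`).

* `bT M q n : FT n →ₐ FT (n+1)` (`f(t) ↦ f(t^q)`), `aT_eq`, `bT_jd`;
* `wT_aT`, `wT_bT` : `w_{q^(n+1)} ∘ α = β ∘ w_{q^n}`, `w_{q^(n+1)} ∘ β = α ∘ w_{q^n}`;
* `exists_eval₂_aT_eq`, `eq_zero_of_eval₂_bT`, `exists_eval₂_bT_eq`, `isBasisAlong_aT`,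
  `isBasisAlong_bT` : the power bases `1, y, …, y^(q-1)` (`y = j(t^(q^(n+2)))` along `α`,
  `y = j(t)` along `β`) of `FT (n+2)` over `FT (n+1)`;
* `alphaFixT M q n H`, `betaFixT M q n H : fixF (lev M q n) H →+* fixF (lev M q (n+1)) H` for any
  subgroup `H ≤ G_ℚ`, `coe_alphaFixT`, `coe_betaFixT`, `alphaFixT_algebraMap`,
  `betaFixT_algebraMap`;
* `finrankHom_alphaFixT`, `finiteHom_alphaFixT`, `coe_normHom_alphaFixT` and the same for `β`
  (levels `n+1 → n+2`): degree `q`, and the norm of the fixed fields is the restriction of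
  `normAlong (heckeAlphaBar …)`, `normAlong (heckeBetaBar …)`.
-/
import Mathlib
import Fermat.Agent.S45lib.Tower.Level
import Fermat.Agent.S36lib.Norm.DescendInst

set_option autoImplicit false
set_option linter.unusedSectionVars false
set_option linter.unusedVariables false
set_option linter.style.haveILetI false

noncomputable section

namespace Fermat.Agent.S45lib.Tower

open ModularCurve AlgebraicCurve Polynomial Module Fermat.Agent.S18lib Fermat.Agent.S18lib.V
open Fermat.Agent.S28lib Fermat.Agent.S29lib.GH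
open Fermat.Agent.S37lib.HeckeInst (FB)
open Fermat.Agent.LSb.Val Fermat.Agent.S36lib.AL Fermat.Agent.S36lib.Eis
open Fermat.Agent.S36lib.Desc2 Fermat.Agent.S36lib.Norm
open Fermat.Agent.ProgramR Fermat.Agent.ProgramR.BarField

local notation "Qb" => AlgebraicClosure ℚ
local notation "GQ" => (AlgebraicClosure ℚ ≃ₐ[ℚ] AlgebraicClosure ℚ)

variable (M q : ℕ) [NeZero M] [NeZero q]

/-! ### `β` on the tower -/

/-- the degeneracy map `β : FT n → FT (n+1)`, `f(t) ↦ f(t^q)` -/
def bT (n : ℕ) : FT M q n →ₐ[Qb] FT M q (n + 1) := heckeBetaBar Qb (lev M q n) q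

theorem aT_eq (n : ℕ) : aT M q n = heckeAlphaBar Qb (lev M q n) q := rfl

theorem coe_bT (n : ℕ) (f : FT M q n) :
    ((bT M q n f : FT M q (n + 1)) : LaurentSeries Qb) = qExpand Qb q (f : LaurentSeries Qb) :=
  rfl

theorem bT_injective (n : ℕ) : Function.Injective (bT M q n) := (bT M q n).toRingHom.injective

theorem bT_jd (n d : ℕ) [NeZero d] (hd : d ∣ lev M q n) :
    bT M q n (jd (lev M q n) d hd) =
      jd (lev M q (n + 1)) (d * q) (Nat.mul_dvd_mul_right hd q) :=
  beta_jd (lev M q n) q d hd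

/-- `β (j(t^(q^i))) = j(t^(q^(i+1)))` -/
theorem bT_jT (n i : ℕ) (hi : i ≤ n) :
    bT M q n (jT M q n i hi) = jT M q (n + 1) (i + 1) (Nat.succ_le_succ hi) := by
  rw [jT, bT_jd, jT]
  exact Tower.jd_congr (lev M q (n + 1)) (pow_succ q i).symm
    (Nat.mul_dvd_mul_right (pow_dvd_lev M q hi) q) (pow_dvd_lev M q (Nat.succ_le_succ hi))

/-! ### the Atkin–Lehner involutions and the degeneracy maps -/

section WT

variable (hq : q.Prime) (hqM : ¬ q ∣ M)

/-- **`w_{q^(n+1)} ∘ α = β ∘ w_{q^n}`** -/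
theorem wT_aT (n : ℕ) (f : FT M q n) :
    wT M q hq hqM (n + 1) (aT M q n f) = bT M q n (wT M q hq hqM n f) := by
  have h : ((wT M q hq hqM (n + 1) : FT M q (n + 1) ≃ₐ[Qb] FT M q (n + 1)) :
      FT M q (n + 1) →+* FT M q (n + 1)).comp
      ((aT M q n : FT M q n →ₐ[Qb] FT M q (n + 1)) : FT M q n →+* FT M q (n + 1)) =
      ((bT M q n : FT M q n →ₐ[Qb] FT M q (n + 1)) : FT M q n →+* FT M q (n + 1)).comp
        ((wT M q hq hqM n : FT M q n ≃ₐ[Qb] FT M q n) : FT M q n →+* FT M q n) := by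
    apply ringHom_ext_FBar (L := Qb) (lev M q n)
    · intro a
      simp only [RingHom.comp_apply, RingHom.coe_coe, AlgHom.commutes, AlgEquiv.commutes]
    · intro d' _ hd'
      simp only [RingHom.comp_apply, RingHom.coe_coe]
      have hd'0 : d' ≠ 0 := NeZero.ne d'
      have hd'' : d' ∣ M * q ^ n := by rw [← lev_eq]; exact hd'
      haveI : NeZero (q ^ n) := ⟨pow_ne_zero n (NeZero.ne q)⟩
      obtain ⟨d, a, b, hdM, hQ, rfl, hd0, ha0, hb0⟩ := exists_factor_of_dvd M (q ^ n) hd'' hd'0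
      haveI : NeZero d := ⟨hd0⟩
      haveI : NeZero a := ⟨ha0⟩
      haveI : NeZero b := ⟨hb0⟩
      haveI : NeZero (b * q) := ⟨mul_ne_zero hb0 (NeZero.ne q)⟩
      have hQ' : q ^ (n + 1) = a * (b * q) := by rw [pow_succ, hQ, mul_assoc]
      have hdb : d * b ∣ lev M q n := by
        rw [lev_eq, hQ]
        exact Nat.mul_dvd_mul hdM (Dvd.intro_left a rfl)
      have hdbq : d * (b * q) ∣ lev M q (n + 1) := by
        rw [lev_eq, hQ']
        exact Nat.mul_dvd_mul hdM (Dvd.intro_left a rfl)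
      have e1 : aT M q n (jdBar (L := Qb) (lev M q n) (d * a) hd') =
          jd (lev M q (n + 1)) (d * a) (dvd_lev_succ_of_dvd M q n hd') := aT_jd M q n (d * a) hd'
      have e2 := wT_jd M q hq hqM (n + 1) d a (b * q) hdM hQ' (dvd_lev_succ_of_dvd M q n hd') hdbq
      have e3 : wT M q hq hqM n (jdBar (L := Qb) (lev M q n) (d * a) hd') =
          jd (lev M q n) (d * b) hdb := wT_jd M q hq hqM n d a b hdM hQ hd' hdb
      have e4 := bT_jd M q n (d * b) hdb
      rw [e1, e2, e3, e4]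
      exact Tower.jd_congr (lev M q (n + 1)) (mul_assoc d b q).symm _ _
  exact congrArg (fun φ : FT M q n →+* FT M q (n + 1) => φ f) h

/-- **`w_{q^(n+1)} ∘ β = α ∘ w_{q^n}`** -/
theorem wT_bT (n : ℕ) (f : FT M q n) :
    wT M q hq hqM (n + 1) (bT M q n f) = aT M q n (wT M q hq hqM n f) := by
  have h := wT_aT M q hq hqM n (wT M q hq hqM n f)
  rw [wT_wT] at h
  rw [← h, wT_wT]

end WT

/-! ### the power bases -/

section Basis

variable (hq : q.Prime) (hqM : ¬ q ∣ M)

/-- `α` as a ring homomorphism -/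
abbrev aR (n : ℕ) : FT M q n →+* FT M q (n + 1) :=
  ((aT M q n : FT M q n →ₐ[Qb] FT M q (n + 1)) : FT M q n →+* FT M q (n + 1))

/-- `β` as a ring homomorphism -/
abbrev bR (n : ℕ) : FT M q n →+* FT M q (n + 1) :=
  ((bT M q n : FT M q n →ₐ[Qb] FT M q (n + 1)) : FT M q n →+* FT M q (n + 1))

include hq hqM in
/-- **every element of `FT (n+2)` is a polynomial of degree `< q` in `j(t^(q^(n+2)))` over
`α (FT (n+1))`** -/
theorem exists_eval₂_aT_eq (n : ℕ) (f : FT M q (n + 2)) :
    ∃ p : (FT M q (n + 1))[X], p.degree < q ∧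
      p.eval₂ (aR M q (n + 1)) (jT M q (n + 2) (n + 2) le_rfl) = f := by
  letI : Algebra (FT M q (n + 1)) (FT M q (n + 2)) := (aR M q (n + 1)).toAlgebra
  have hfr : Module.finrank (FT M q (n + 1)) (FT M q (n + 2)) = q := finrank_aT_succ M q hq n
  haveI : Module.Finite (FT M q (n + 1)) (FT M q (n + 2)) :=
    Module.finite_of_finrank_pos (by rw [hfr]; exact hq.pos)
  let ev : Polynomial.degreeLT (FT M q (n + 1)) q →ₗ[FT M q (n + 1)] FT M q (n + 2) :=
    (Polynomial.aeval (jT M q (n + 2) (n + 2) le_rfl)).toLinearMap.comp (Submodule.subtype _)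
  have hev : ∀ p : Polynomial.degreeLT (FT M q (n + 1)) q,
      ev p = (p : (FT M q (n + 1))[X]).eval₂ (aR M q (n + 1)) (jT M q (n + 2) (n + 2) le_rfl) :=
    fun p => rfl
  have hinj : Function.Injective ev := by
    rw [injective_iff_map_eq_zero]
    intro p hp
    rw [hev] at hp
    have hdeg : (p : (FT M q (n + 1))[X]).natDegree < q := by
      by_cases h0 : (p : (FT M q (n + 1))[X]) = 0
      · rw [h0, natDegree_zero]; exact hq.pos
      · exact (natDegree_lt_iff_degree_lt h0).mpr (Polynomial.mem_degreeLT.mp p.2)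
    exact Subtype.ext (eq_zero_of_eval₂_aT M q hq hqM (n + 1) _ hdeg hp)
  have hdim : Module.finrank (FT M q (n + 1)) (Polynomial.degreeLT (FT M q (n + 1)) q) =
      Module.finrank (FT M q (n + 1)) (FT M q (n + 2)) := by
    rw [hfr, (Polynomial.degreeLTEquiv (FT M q (n + 1)) q).finrank_eq, Module.finrank_fin_fun]
  haveI : Module.Finite (FT M q (n + 1)) (Polynomial.degreeLT (FT M q (n + 1)) q) :=
    Module.Finite.equiv (Polynomial.degreeLTEquiv (FT M q (n + 1)) q).symm
  obtain ⟨p, hp⟩ := (LinearMap.injective_iff_surjective_of_finrank_eq_finrank hdim).mp hinj f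
  exact ⟨p, Polynomial.mem_degreeLT.mp p.2, by rw [← hev, hp]⟩

/-- `w_{q^(n+1)}` as a ring homomorphism -/
abbrev wR (n : ℕ) : FT M q n →+* FT M q n :=
  ((wT M q hq hqM n : FT M q n ≃ₐ[Qb] FT M q n) : FT M q n →+* FT M q n)

theorem wR_comp_bR (n : ℕ) :
    (wR M q hq hqM (n + 1)).comp (bR M q n) = (aR M q n).comp (wR M q hq hqM n) :=
  RingHom.ext fun f => wT_bT M q hq hqM n f

theorem wR_comp_aR (n : ℕ) :
    (wR M q hq hqM (n + 1)).comp (aR M q n) = (bR M q n).comp (wR M q hq hqM n) :=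
  RingHom.ext fun f => wT_aT M q hq hqM n f

theorem wR_jT_zero (n : ℕ) :
    wR M q hq hqM n (jT M q n 0 (Nat.zero_le n)) = jT M q n n le_rfl := by
  show wT M q hq hqM n (jT M q n 0 (Nat.zero_le n)) = _
  rw [wT_jT]
  rfl

theorem wR_jT_top (n : ℕ) :
    wR M q hq hqM n (jT M q n n le_rfl) = jT M q n 0 (Nat.zero_le n) := by
  rw [← wR_jT_zero M q hq hqM n]
  exact wT_wT M q hq hqM n _

include hq hqM in
/-- **`1, x, …, x^(q-1)` (`x = j(t)`) are linearly independent over `β (FT n)`** -/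
theorem eq_zero_of_eval₂_bT (n : ℕ) (p : (FT M q n)[X]) (hdeg : p.natDegree < q)
    (h : p.eval₂ (bR M q n) (jT M q (n + 1) 0 (Nat.zero_le _)) = 0) : p = 0 := by
  have h1 := hom_eval₂ p (bR M q n) (wR M q hq hqM (n + 1)) (jT M q (n + 1) 0 (Nat.zero_le _))
  rw [h, map_zero, wR_comp_bR, ← eval₂_map, wR_jT_zero] at h1
  have h4 := eq_zero_of_eval₂_aT M q hq hqM n (p.map (wR M q hq hqM n))
    ((natDegree_map_le).trans_lt hdeg) h1.symm
  exact (Polynomial.map_eq_zero_iff (RingHom.injective _)).mp h4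

include hq hqM in
/-- every element of `FT (n+2)` is a polynomial of degree `< q` in `x = j(t)` over
`β (FT (n+1))` -/
theorem exists_eval₂_bT_eq (n : ℕ) (f : FT M q (n + 2)) :
    ∃ p : (FT M q (n + 1))[X], p.degree < q ∧
      p.eval₂ (bR M q (n + 1)) (jT M q (n + 2) 0 (Nat.zero_le _)) = f := by
  obtain ⟨p, hp, hpf⟩ := exists_eval₂_aT_eq M q hq hqM n (wT M q hq hqM (n + 2) f)
  refine ⟨p.map (wR M q hq hqM (n + 1)), (degree_map_le).trans_lt hp, ?_⟩
  have h1 := hom_eval₂ p (aR M q (n + 1)) (wR M q hq hqM (n + 2))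
    (jT M q (n + 2) (n + 2) le_rfl)
  rw [hpf, wR_comp_aR, ← eval₂_map, wR_jT_top] at h1
  rw [← h1]
  exact wT_wT M q hq hqM (n + 2) f

include hq hqM in
theorem isBasisAlong_aT (n : ℕ) :
    IsBasisAlong (aR M q (n + 1)) (fun i : Fin q => (jT M q (n + 2) (n + 2) le_rfl) ^ (i : ℕ)) :=
  isBasisAlong_pow_of_eval₂ _ _ q (eq_zero_of_eval₂_aT M q hq hqM (n + 1))
    (exists_eval₂_aT_eq M q hq hqM n)

include hq hqM in
theorem isBasisAlong_bT (n : ℕ) :
    IsBasisAlong (bR M q (n + 1))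
      (fun i : Fin q => (jT M q (n + 2) 0 (Nat.zero_le _)) ^ (i : ℕ)) :=
  isBasisAlong_pow_of_eval₂ _ _ q (eq_zero_of_eval₂_bT M q hq hqM (n + 1))
    (exists_eval₂_bT_eq M q hq hqM n)

end Basis

/-! ### the fixed fields -/

section Fix

variable (H : Subgroup GQ)

/-- `α` on the fixed fields, level `M q^n → M q^(n+1)` -/
def alphaFixT (n : ℕ) : fixF (lev M q n) H →+* fixF (lev M q (n + 1)) H :=
  fixMap H (aR M q n) (fun σ _ x => intertwines_alpha (lev M q n) q σ x)

/-- `β` on the fixed fields, level `M q^n → M q^(n+1)` -/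
def betaFixT (n : ℕ) : fixF (lev M q n) H →+* fixF (lev M q (n + 1)) H :=
  fixMap H (bR M q n) (fun σ _ x => intertwines_beta (lev M q n) q σ x)

theorem coe_alphaFixT (n : ℕ) (x : fixF (lev M q n) H) :
    ((alphaFixT M q H n x : fixF (lev M q (n + 1)) H) : FB (lev M q (n + 1))) =
      heckeAlphaBar Qb (lev M q n) q (x : FB (lev M q n)) := rfl

theorem coe_betaFixT (n : ℕ) (x : fixF (lev M q n) H) :
    ((betaFixT M q H n x : fixF (lev M q (n + 1)) H) : FB (lev M q (n + 1))) =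
      heckeBetaBar Qb (lev M q n) q (x : FB (lev M q n)) := rfl

/-- `α` is `K`-linear -/
theorem alphaFixT_algebraMap (n : ℕ) (c : fixK H) :
    alphaFixT M q H n (algebraMap (fixK H) (fixF (lev M q n) H) c) =
      algebraMap (fixK H) (fixF (lev M q (n + 1)) H) c := by
  apply Subtype.ext
  rw [coe_alphaFixT, coe_algebraMap_fixF, coe_algebraMap_fixF, AlgHom.commutes]
  rfl

/-- `β` is `K`-linear -/
theorem betaFixT_algebraMap (n : ℕ) (c : fixK H) :
    betaFixT M q H n (algebraMap (fixK H) (fixF (lev M q n) H) c) =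
      algebraMap (fixK H) (fixF (lev M q (n + 1)) H) c := by
  apply Subtype.ext
  rw [coe_betaFixT, coe_algebraMap_fixF, coe_algebraMap_fixF, AlgHom.commutes]
  rfl

/-- `j(t^(q^i))` in the fixed field of level `M q^n` -/
def jTFix (n i : ℕ) (hi : i ≤ n) : fixF (lev M q n) H :=
  ⟨jT M q n i hi, jd_mem_fixF H (lev M q n) (q ^ i) (pow_dvd_lev M q hi)⟩

@[simp] theorem coe_jTFix (n i : ℕ) (hi : i ≤ n) :
    ((jTFix M q H n i hi : fixF (lev M q n) H) : FB (lev M q n)) = jT M q n i hi := rfl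

theorem alphaFixT_jTFix (n i : ℕ) (hi : i ≤ n) :
    alphaFixT M q H n (jTFix M q H n i hi) = jTFix M q H (n + 1) i (Nat.le_succ_of_le hi) :=
  Subtype.ext (aT_jT M q n i hi)

theorem betaFixT_jTFix (n i : ℕ) (hi : i ≤ n) :
    betaFixT M q H n (jTFix M q H n i hi) = jTFix M q H (n + 1) (i + 1) (Nat.succ_le_succ hi) :=
  Subtype.ext (bT_jT M q n i hi)

variable (hq : q.Prime) (hqM : ¬ q ∣ M)

include hq hqM in
theorem finrankHom_alphaFixT (n : ℕ) : finrankHom (alphaFixT M q H (n + 1)) = q :=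
  (descend_fix H (aR M q (n + 1)) _ (jTFix M q H (n + 2) (n + 2) le_rfl)
    (isBasisAlong_aT M q hq hqM n)).1

include hq hqM in
theorem finiteHom_alphaFixT (n : ℕ) : FiniteHom (alphaFixT M q H (n + 1)) :=
  (descend_fix H (aR M q (n + 1)) _ (jTFix M q H (n + 2) (n + 2) le_rfl)
    (isBasisAlong_aT M q hq hqM n)).2.1

include hq hqM in
/-- **the norm along `α` of the fixed fields is the restriction of the geometric norm** -/
theorem coe_normHom_alphaFixT (n : ℕ) (u : fixF (lev M q (n + 2)) H) :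
    ((normHom (alphaFixT M q H (n + 1)) u : fixF (lev M q (n + 1)) H) : FB (lev M q (n + 1))) =
      Fermat.Agent.S29lib.D.normAlong (heckeAlphaBar Qb (lev M q (n + 1)) q)
        (u : FB (lev M q (n + 2))) :=
  (descend_fix H (aR M q (n + 1)) _ (jTFix M q H (n + 2) (n + 2) le_rfl)
    (isBasisAlong_aT M q hq hqM n)).2.2 u

include hq hqM in
theorem finrankHom_betaFixT (n : ℕ) : finrankHom (betaFixT M q H (n + 1)) = q :=
  (descend_fix H (bR M q (n + 1)) _ (jTFix M q H (n + 2) 0 (Nat.zero_le _))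
    (isBasisAlong_bT M q hq hqM n)).1

include hq hqM in
theorem finiteHom_betaFixT (n : ℕ) : FiniteHom (betaFixT M q H (n + 1)) :=
  (descend_fix H (bR M q (n + 1)) _ (jTFix M q H (n + 2) 0 (Nat.zero_le _))
    (isBasisAlong_bT M q hq hqM n)).2.1

include hq hqM in
/-- **the norm along `β` of the fixed fields is the restriction of the geometric norm** -/
theorem coe_normHom_betaFixT (n : ℕ) (u : fixF (lev M q (n + 2)) H) :
    ((normHom (betaFixT M q H (n + 1)) u : fixF (lev M q (n + 1)) H) : FB (lev M q (n + 1))) =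
      Fermat.Agent.S29lib.D.normAlong (heckeBetaBar Qb (lev M q (n + 1)) q)
        (u : FB (lev M q (n + 2))) :=
  (descend_fix H (bR M q (n + 1)) _ (jTFix M q H (n + 2) 0 (Nat.zero_le _))
    (isBasisAlong_bT M q hq hqM n)).2.2 u

end Fix

end Fermat.Agent.S45lib.Tower
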