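/-
S45lib / Tower / PosStep  (helper9)  --  Project J, the (KM) tower: positions and steps

**The `k + 1` positions `y ↦ y(q^i z)` (`fixF M H → fixF (M q^k) H`) and the `k` steps
`g ↦ g(q^i z)` (`fixF (M q) H → fixF (M q^k) H`) of the tower**, as composites of helper2's
`alphaFixT`, `betaFixT` (`Tower/NormFix`), with helper6's recursion (#h6-H66):

* `posT M q H k i`  (`i ≤ k`) : `α^(k-i) ∘ β^i`, built level by level: the last step is `α` for
  `i ≤ k`, `β` for `i = k + 1`;
* `stepT M q H k i` (`i ≤ k`) : the same from the level `M q` to the level `M q^(k+1)`;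
* equation lemmas `posT_zero`, `posT_succ_of_le`, `posT_succ_last`, `stepT_zero`, `stepT_succ_of_le`,
  `stepT_succ_last`;
* `K`-linearity `posT_algebraMap`, `stepT_algebraMap`, `posT_natCast`, `stepT_natCast`;
* `posT_jFixM : posT k i j = j(q^i z)` (`= jTFix k i`), `coe_posT_zero_jFixM`;
* regularity off the cusps `posT_mem_regAwayFix`, `stepT_mem_regAwayFix`;
* `finiteHom_posT`, `finrankHom_posT_succ : deg (posT (k+1) i) = (q + 1) q^k` (EVERY `i`, in
  particular both ends `i = 0` and `i = k + 1`), `finiteHom_stepT`, `finrankHom_stepT : q^k`;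
* `alphaFixT_zero_eq`, `betaFixT_zero_eq` : the first step is `Mid.alphaFixM`, `Mid.betaFixM`.
-/
import Mathlib
import Fermat.Agent.S45lib.Tower.NormFix
import Fermat.Agent.S36lib.Mid.Three
import Fermat.Agent.S36lib.Mid.FixDegree
import Fermat.Agent.S36lib.Fin.CuspInst
import Fermat.Agent.S36lib.Norm.ChartInst
import Fermat.Agent.S36lib.Desc2.LiftM

set_option autoImplicit false
set_option linter.unusedSectionVars false
set_option linter.unusedVariables false
set_option linter.style.haveILetI false

noncomputable section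

namespace Fermat.Agent.S45lib.Tower

open ModularCurve AlgebraicCurve Polynomial Module Fermat.Agent.S18lib Fermat.Agent.S18lib.V
open Fermat.Agent.S28lib Fermat.Agent.S29lib.GH
open Fermat.Agent.S37lib.HeckeInst (FB)
open Fermat.Agent.S36lib.Desc2 Fermat.Agent.S36lib.Norm Fermat.Agent.S36lib.Mid
open Fermat.Agent.ProgramR Fermat.Agent.ProgramR.BarField
open Fermat.Agent.LSb.Unit (regAway)

local notation "Qb" => AlgebraicClosure ℚ
local notation "GQ" => (AlgebraicClosure ℚ ≃ₐ[ℚ] AlgebraicClosure ℚ)

variable (M q : ℕ) [NeZero M] [NeZero q] (H : Subgroup GQ)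

/-! ### the definitions -/

/-- **the position `y ↦ y(q^i z)`**, from the level `M` to the level `M q^k` (`i ≤ k`) -/
def posT : (k : ℕ) → ℕ → fixF M H →+* fixF (lev M q k) H
  | 0, _ => RingHom.id _
  | k + 1, i =>
    if i ≤ k then (alphaFixT M q H k).comp (posT k i) else (betaFixT M q H k).comp (posT k k)

/-- **the step `g ↦ g(q^i z)`**, from the level `M q` to the level `M q^(k+1)` (`i ≤ k`) -/
def stepT : (k : ℕ) → ℕ → fixF (M * q) H →+* fixF (lev M q (k + 1)) H
  | 0, _ => RingHom.id _
  | k + 1, i =>
    if i ≤ k then (alphaFixT M q H (k + 1)).comp (stepT k i)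
    else (betaFixT M q H (k + 1)).comp (stepT k k)

theorem posT_zero (i : ℕ) : posT M q H 0 i = RingHom.id _ := rfl

theorem posT_succ (k i : ℕ) : posT M q H (k + 1) i =
    if i ≤ k then (alphaFixT M q H k).comp (posT M q H k i)
    else (betaFixT M q H k).comp (posT M q H k k) := rfl

theorem posT_succ_of_le {k i : ℕ} (h : i ≤ k) :
    posT M q H (k + 1) i = (alphaFixT M q H k).comp (posT M q H k i) := by
  rw [posT_succ, if_pos h]

theorem posT_succ_of_lt {k i : ℕ} (h : k < i) :
    posT M q H (k + 1) i = (betaFixT M q H k).comp (posT M q H k k) := by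
  rw [posT_succ, if_neg (not_le.2 h)]

theorem posT_succ_last (k : ℕ) :
    posT M q H (k + 1) (k + 1) = (betaFixT M q H k).comp (posT M q H k k) :=
  posT_succ_of_lt M q H (Nat.lt_succ_self k)

theorem stepT_zero (i : ℕ) : stepT M q H 0 i = RingHom.id _ := rfl

theorem stepT_succ (k i : ℕ) : stepT M q H (k + 1) i =
    if i ≤ k then (alphaFixT M q H (k + 1)).comp (stepT M q H k i)
    else (betaFixT M q H (k + 1)).comp (stepT M q H k k) := rfl

theorem stepT_succ_of_le {k i : ℕ} (h : i ≤ k) :
    stepT M q H (k + 1) i = (alphaFixT M q H (k + 1)).comp (stepT M q H k i) := by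
  rw [stepT_succ, if_pos h]

theorem stepT_succ_of_lt {k i : ℕ} (h : k < i) :
    stepT M q H (k + 1) i = (betaFixT M q H (k + 1)).comp (stepT M q H k k) := by
  rw [stepT_succ, if_neg (not_le.2 h)]

theorem stepT_succ_last (k : ℕ) :
    stepT M q H (k + 1) (k + 1) = (betaFixT M q H (k + 1)).comp (stepT M q H k k) :=
  stepT_succ_of_lt M q H (Nat.lt_succ_self k)

/-! ### the first step is the step `M → M q` of `S36lib/Mid` -/

theorem alphaFixT_zero_eq : alphaFixT M q H 0 = alphaFixM M q H := rfl

theorem betaFixT_zero_eq : betaFixT M q H 0 = betaFixM M q H := rfl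

theorem posT_one_zero : posT M q H 1 0 = alphaFixM M q H := rfl

theorem posT_one_one : posT M q H 1 1 = betaFixM M q H := rfl

theorem posT_one (i : ℕ) :
    posT M q H 1 i = if i ≤ 0 then alphaFixM M q H else betaFixM M q H := rfl

/-! ### `K`-linearity -/

theorem posT_algebraMap (k i : ℕ) (c : fixK H) :
    posT M q H k i (algebraMap (fixK H) (fixF M H) c) =
      algebraMap (fixK H) (fixF (lev M q k) H) c := by
  induction k generalizing i with
  | zero => rfl
  | succ k ih =>
    rw [posT_succ]
    split_ifs with h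
    · rw [RingHom.comp_apply, ih, alphaFixT_algebraMap]
    · rw [RingHom.comp_apply, ih, betaFixT_algebraMap]

theorem stepT_algebraMap (k i : ℕ) (c : fixK H) :
    stepT M q H k i (algebraMap (fixK H) (fixF (M * q) H) c) =
      algebraMap (fixK H) (fixF (lev M q (k + 1)) H) c := by
  induction k generalizing i with
  | zero => rfl
  | succ k ih =>
    rw [stepT_succ]
    split_ifs with h
    · rw [RingHom.comp_apply, ih, alphaFixT_algebraMap]
    · rw [RingHom.comp_apply, ih, betaFixT_algebraMap]

/-- the positions fix the natural numbers, spelled through the constants -/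
theorem posT_natCast (k i n : ℕ) :
    posT M q H k i ((n : ℕ) : fixF M H) =
      algebraMap (fixK H) (fixF (lev M q k) H) ((n : ℕ) : fixK H) := by
  rw [map_natCast, map_natCast]

/-- the steps fix the natural numbers, spelled through the constants (`step_q` of `RowsReq`) -/
theorem stepT_natCast (k i n : ℕ) :
    stepT M q H k i ((n : ℕ) : fixF (M * q) H) =
      algebraMap (fixK H) (fixF (lev M q (k + 1)) H) ((n : ℕ) : fixK H) := by
  rw [map_natCast, map_natCast]

/-! ### the images of `j` -/

/-- `j(q^0 z) = j` at the level `M q^k` -/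
theorem coe_jTFix_zero (k : ℕ) :
    ((jTFix M q H k 0 (Nat.zero_le k) : fixF (lev M q k) H) : FB (lev M q k)) =
      Gin0.jF (lev M q k) := by
  rw [coe_jTFix, jT, jF_eq_jd]
  exact Tower.jd_congr (lev M q k) (pow_zero q) _ _

theorem jTFix_zero_zero : jTFix M q H 0 0 le_rfl = jFixM M H :=
  Subtype.ext (coe_jTFix_zero M q H 0)

/-- **`posT k i j = j(q^i z)`** -/
theorem posT_jFixM (k i : ℕ) (hi : i ≤ k) :
    posT M q H k i (jFixM M H) = jTFix M q H k i hi := by
  induction k generalizing i with
  | zero =>
    obtain rfl : i = 0 := Nat.le_zero.1 hi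
    exact (jTFix_zero_zero M q H).symm
  | succ k ih =>
    rcases Nat.lt_or_ge k i with h | h
    · obtain rfl : i = k + 1 := le_antisymm hi h
      rw [posT_succ_last, RingHom.comp_apply, ih k le_rfl, betaFixT_jTFix]
    · rw [posT_succ_of_le M q H h, RingHom.comp_apply, ih i h, alphaFixT_jTFix]

/-- **`posT k 0 j = j`** (the field `ψ_j` of `TowerReq`) -/
theorem coe_posT_zero_jFixM (k : ℕ) :
    ((posT M q H k 0 (jFixM M H) : fixF (lev M q k) H) : FB (lev M q k)) =
      Gin0.jF (lev M q k) := by
  rw [posT_jFixM M q H k 0 (Nat.zero_le k), coe_jTFix_zero]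

/-! ### regularity off the cusps -/

section Reg

variable [hq : Fact q.Prime]

theorem alphaFixT_mem_regAwayFix (n : ℕ) {y : fixF (lev M q n) H}
    (hy : y ∈ regAwayFix (lev M q n) H) :
    alphaFixT M q H n y ∈ regAwayFix (lev M q (n + 1)) H :=
  Fermat.Agent.S36lib.Fin.heckeAlphaBar_mem_regAway (lev M q n) q hy

theorem betaFixT_mem_regAwayFix (n : ℕ) {y : fixF (lev M q n) H}
    (hy : y ∈ regAwayFix (lev M q n) H) :
    betaFixT M q H n y ∈ regAwayFix (lev M q (n + 1)) H :=
  Fermat.Agent.S36lib.Fin.heckeBetaBar_mem_regAway (lev M q n) q hy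

/-- **`y ↦ y(q^i z)` preserves regularity off the cusps** (`pos_reg` of `RowsReq`) -/
theorem posT_mem_regAwayFix (k i : ℕ) {y : fixF M H} (hy : y ∈ regAwayFix M H) :
    posT M q H k i y ∈ regAwayFix (lev M q k) H := by
  induction k generalizing i with
  | zero => exact hy
  | succ k ih =>
    rw [posT_succ]
    split_ifs with h
    · exact alphaFixT_mem_regAwayFix M q H k (ih i)
    · exact betaFixT_mem_regAwayFix M q H k (ih k)

/-- **`g ↦ g(q^i z)` preserves regularity off the cusps** (`step_reg` of `RowsReq`) -/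
theorem stepT_mem_regAwayFix (k i : ℕ) {y : fixF (M * q) H} (hy : y ∈ regAwayFix (M * q) H) :
    stepT M q H k i y ∈ regAwayFix (lev M q (k + 1)) H := by
  induction k generalizing i with
  | zero => exact hy
  | succ k ih =>
    rw [stepT_succ]
    split_ifs with h
    · exact alphaFixT_mem_regAwayFix M q H (k + 1) (ih i)
    · exact betaFixT_mem_regAwayFix M q H (k + 1) (ih k)

end Reg

/-! ### finiteness and degrees -/

section Deg

variable (hq : q.Prime) (hqM : ¬ q ∣ M)

theorem finiteHom_alphaFixT_zero : FiniteHom (alphaFixT M q H 0) := finiteHom_alphaFixM M q H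

theorem finiteHom_betaFixT_zero : FiniteHom (betaFixT M q H 0) := finiteHom_betaFixM M q H

include hq hqM in
theorem finrankHom_alphaFixT_zero : finrankHom (alphaFixT M q H 0) = q + 1 :=
  finrankHom_alphaFixM M q H hq hqM

include hq hqM in
theorem finrankHom_betaFixT_zero : finrankHom (betaFixT M q H 0) = q + 1 :=
  finrankHom_betaFixM M q H hq hqM

include hq hqM in
theorem finiteHom_alphaFixT' (n : ℕ) : FiniteHom (alphaFixT M q H n) := by
  rcases n with _ | n
  · exact finiteHom_alphaFixT_zero M q H
  · exact finiteHom_alphaFixT M q H hq hqM n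

include hq hqM in
theorem finiteHom_betaFixT' (n : ℕ) : FiniteHom (betaFixT M q H n) := by
  rcases n with _ | n
  · exact finiteHom_betaFixT_zero M q H
  · exact finiteHom_betaFixT M q H hq hqM n

include hq hqM in
/-- the positions are finite -/
theorem finiteHom_posT (k i : ℕ) : FiniteHom (posT M q H k i) := by
  induction k generalizing i with
  | zero => exact finiteHom_id
  | succ k ih =>
    rw [posT_succ]
    split_ifs with h
    · exact finiteHom_comp _ _ (ih i) (finiteHom_alphaFixT' M q H hq hqM k)
    · exact finiteHom_comp _ _ (ih k) (finiteHom_betaFixT' M q H hq hqM k)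

include hq hqM in
/-- the steps are finite -/
theorem finiteHom_stepT (k i : ℕ) : FiniteHom (stepT M q H k i) := by
  induction k generalizing i with
  | zero => exact finiteHom_id
  | succ k ih =>
    rw [stepT_succ]
    split_ifs with h
    · exact finiteHom_comp _ _ (ih i) (finiteHom_alphaFixT M q H hq hqM k)
    · exact finiteHom_comp _ _ (ih k) (finiteHom_betaFixT M q H hq hqM k)

include hq hqM in
/-- **the degree of every position at the level `M q^(k+1)` is `(q + 1) q^k`** -/
theorem finrankHom_posT_succ (k i : ℕ) : finrankHom (posT M q H (k + 1) i) = (q + 1) * q ^ k := by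
  induction k generalizing i with
  | zero =>
    rw [posT_one, pow_zero, mul_one]
    split_ifs with h
    · exact finrankHom_alphaFixM M q H hq hqM
    · exact finrankHom_betaFixM M q H hq hqM
  | succ k ih =>
    rw [posT_succ]
    split_ifs with h
    · rw [finrankHom_comp, ih, finrankHom_alphaFixT M q H hq hqM k, pow_succ, mul_assoc]
    · rw [finrankHom_comp, ih, finrankHom_betaFixT M q H hq hqM k, pow_succ, mul_assoc]

include hq hqM in
/-- the degree of the positions, `1 ≤ k` -/
theorem finrankHom_posT (k i : ℕ) (hk : 1 ≤ k) :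
    finrankHom (posT M q H k i) = (q + 1) * q ^ (k - 1) := by
  obtain ⟨k, rfl⟩ := Nat.exists_eq_succ_of_ne_zero (Nat.one_le_iff_ne_zero.1 hk)
  exact finrankHom_posT_succ M q H hq hqM k i

include hq hqM in
/-- **the degree of every step `M q → M q^(k+1)` is `q^k`** -/
theorem finrankHom_stepT (k i : ℕ) : finrankHom (stepT M q H k i) = q ^ k := by
  induction k generalizing i with
  | zero => rw [stepT_zero, pow_zero]; exact finrankHom_id
  | succ k ih =>
    rw [stepT_succ]
    split_ifs with h
    · rw [finrankHom_comp, ih, finrankHom_alphaFixT M q H hq hqM k, pow_succ]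
    · rw [finrankHom_comp, ih, finrankHom_betaFixT M q H hq hqM k, pow_succ]

end Deg

end Fermat.Agent.S45lib.Tower
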