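/-
S45lib / Tower / HomExtAbs  (helper1)  --  Project J, (KM) tower step

**Abstract hom-extension along a simple finite extension**, stated along explicit ring
homomorphisms (no `Algebra` instances in the statements; Mathlib only).

`a : K →+* F` a finite extension of fields of degree `D`, `y : F` such that no nonzero polynomial of
degree `< m` over `K` kills `y` (`m ≤ D < 2 m`).  Then `y` generates `F` over `a K`, the minimal
polynomial of `y` has degree `D`, and for every monic `Q` of degree `D` with `Q(y) = 0`, every
field `L`, every `φ : K →+* L` and every root `x : L` of `Q^φ` there is a UNIQUE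
`φ' : F →+* L` with `φ' ∘ a = φ` and `φ' y = x`.
-/
import Mathlib

set_option autoImplicit false
set_option linter.unusedSectionVars false
set_option linter.style.haveILetI false

noncomputable section

namespace Fermat.Agent.S45lib.Tower

open Polynomial Module

section Alg

variable {K F : Type*} [Field K] [Field F] [Algebra K F] [FiniteDimensional K F]

/-- if no nonzero polynomial of degree `< m` kills `y` and `[F : K] < 2 m`, then `K(y) = F` -/
theorem adjoin_simple_eq_top_of_forall_natDegree {y : F} {m : ℕ}
    (hm : ∀ p : K[X], p.natDegree < m → aeval y p = 0 → p = 0)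
    (hD : finrank K F < 2 * m) : IntermediateField.adjoin K {y} = ⊤ := by
  have hint : IsIntegral K y := IsIntegral.of_finite K y
  have hd : m ≤ (minpoly K y).natDegree := by
    by_contra hlt
    exact minpoly.ne_zero hint (hm _ (not_le.1 hlt) (minpoly.aeval K y))
  have hfr : finrank K (IntermediateField.adjoin K {y}) = (minpoly K y).natDegree :=
    IntermediateField.adjoin.finrank hint
  have hmul := finrank_mul_finrank K (IntermediateField.adjoin K {y}) F
  set d := finrank K (IntermediateField.adjoin K {y}) with hd'
  set c := finrank (IntermediateField.adjoin K {y}) F with hc'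
  have hc1 : c = 1 := by
    have hpos : 0 < finrank K F := finrank_pos
    rcases Nat.lt_or_ge c 2 with h | h
    · rcases Nat.eq_zero_or_pos c with h0 | h0
      · rw [h0, mul_zero] at hmul; omega
      · omega
    · exfalso
      have : 2 * m ≤ d * c := by
        calc 2 * m ≤ 2 * d := by rw [hfr]; omega
          _ = d * 2 := by ring
          _ ≤ d * c := Nat.mul_le_mul_left d h
      omega
  refine IntermediateField.eq_of_le_of_finrank_eq' le_top ?_
  rw [IntermediateField.finrank_top]
  exact hc1

theorem algebra_adjoin_eq_top_of_forall_natDegree {y : F} {m : ℕ}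
    (hm : ∀ p : K[X], p.natDegree < m → aeval y p = 0 → p = 0)
    (hD : finrank K F < 2 * m) : Algebra.adjoin K {y} = ⊤ := by
  have hint : IsIntegral K y := IsIntegral.of_finite K y
  have h1 := IntermediateField.adjoin_simple_toSubalgebra_of_isAlgebraic (hint.isAlgebraic)
  rw [adjoin_simple_eq_top_of_forall_natDegree hm hD] at h1
  rw [← h1]
  rfl

/-- a monic polynomial of degree `[F : K]` killing a generator is its minimal polynomial -/
theorem minpoly_eq_of_monic_of_natDegree {y : F} (hgen : Algebra.adjoin K {y} = ⊤) {Q : K[X]}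
    (hQ : Q.Monic) (hdeg : Q.natDegree = finrank K F) (hQy : aeval y Q = 0) :
    minpoly K y = Q := by
  have hint : IsIntegral K y := IsIntegral.of_finite K y
  have hpb : (PowerBasis.ofAdjoinEqTop hint hgen).dim = finrank K F :=
    (PowerBasis.finrank _).symm
  rw [PowerBasis.ofAdjoinEqTop_dim] at hpb
  have hdvd : minpoly K y ∣ Q := minpoly.dvd K y hQy
  exact (Polynomial.eq_of_monic_of_dvd_of_natDegree_le (minpoly.monic hint) hQ hdvd
    (by rw [hdeg, hpb])).symm

end Alg

section Hom

variable {K F L : Type*} [Field K] [Field F] [Field L]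

/-- **HOM-EXTENSION** along a simple finite extension. -/
theorem exists_unique_ringHom_ext (a : K →+* F)
    (hfin : letI := a.toAlgebra; FiniteDimensional K F) {y : F} {m : ℕ}
    (hm : ∀ p : K[X], p.natDegree < m → p.eval₂ a y = 0 → p = 0)
    (hD : (letI := a.toAlgebra; finrank K F) < 2 * m) {Q : K[X]} (hQ : Q.Monic)
    (hdeg : Q.natDegree = (letI := a.toAlgebra; finrank K F)) (hQy : Q.eval₂ a y = 0)
    (φ : K →+* L) {x : L} (hx : Q.eval₂ φ x = 0) :
    ∃! φ' : F →+* L, φ'.comp a = φ ∧ φ' y = x := by
  letI := a.toAlgebra
  letI : Algebra K L := φ.toAlgebra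
  haveI : FiniteDimensional K F := hfin
  have hm' : ∀ p : K[X], p.natDegree < m → aeval y p = 0 → p = 0 := fun p hp h =>
    hm p hp (by rwa [aeval_def] at h)
  have hgen := algebra_adjoin_eq_top_of_forall_natDegree hm' hD
  have hint : IsIntegral K y := IsIntegral.of_finite K y
  have hmin : minpoly K y = Q :=
    minpoly_eq_of_monic_of_natDegree hgen hQ hdeg (by rw [aeval_def]; exact hQy)
  set pb := PowerBasis.ofAdjoinEqTop hint hgen with hpb
  have hgenpb : pb.gen = y := PowerBasis.ofAdjoinEqTop_gen hint hgen
  have hx' : aeval x (minpoly K pb.gen) = 0 := by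
    rw [hgenpb, hmin, aeval_def]
    exact hx
  refine ⟨(pb.lift x hx' : F →ₐ[K] L).toRingHom, ⟨?_, ?_⟩, ?_⟩
  · refine RingHom.ext fun c => ?_
    exact (pb.lift x hx').commutes c
  · have := pb.lift_gen x hx'
    rw [hgenpb] at this
    exact this
  · rintro ψ ⟨hψ1, hψ2⟩
    have hcomm : ∀ c : K, ψ (algebraMap K F c) = algebraMap K L c := fun c =>
      congrArg (fun f : K →+* L => f c) hψ1
    let ψ' : F →ₐ[K] L := { ψ with commutes' := hcomm }
    have : ψ' = pb.lift x hx' := by
      apply pb.algHom_ext
      rw [pb.lift_gen, hgenpb]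
      exact hψ2
    refine RingHom.ext fun z => ?_
    exact congrArg (fun f : F →ₐ[K] L => f z) this

/-- **uniqueness** of extensions along a simple finite extension -/
theorem ringHom_ext_of_forall_natDegree (a : K →+* F)
    (hfin : letI := a.toAlgebra; FiniteDimensional K F) {y : F} {m : ℕ}
    (hm : ∀ p : K[X], p.natDegree < m → p.eval₂ a y = 0 → p = 0)
    (hD : (letI := a.toAlgebra; finrank K F) < 2 * m) {φ₁ φ₂ : F →+* L}
    (h₁ : φ₁.comp a = φ₂.comp a) (h₂ : φ₁ y = φ₂ y) : φ₁ = φ₂ := by
  letI := a.toAlgebra
  haveI : FiniteDimensional K F := hfin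
  have hm' : ∀ p : K[X], p.natDegree < m → aeval y p = 0 → p = 0 := fun p hp h =>
    hm p hp (by rwa [aeval_def] at h)
  have hgen := algebra_adjoin_eq_top_of_forall_natDegree hm' hD
  refine RingHom.ext fun z => ?_
  have hz : z ∈ Algebra.adjoin K {y} := by rw [hgen]; exact Algebra.mem_top
  induction hz using Algebra.adjoin_induction with
  | mem x hx =>
    rw [Set.mem_singleton_iff] at hx
    rw [hx]; exact h₂
  | algebraMap c => exact congrArg (fun f : K →+* L => f c) h₁
  | add x y _ _ hx hy => rw [map_add, map_add, hx, hy]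
  | mul x y _ _ hx hy => rw [map_mul, map_mul, hx, hy]

end Hom

end Fermat.Agent.S45lib.Tower
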