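/-
S45lib / Tower / HomExt  (helper1)  --  Project J, (KM) tower step

**Hom-extension along the `α`-tower `FT 0 ⊆ FT 1 ⊆ FT 2 ⊆ …`** (`FT n = ℚ̄(X₀(M q^n))`, `q ∤ M`).

* `phiT M q n : (FT n)[X]` : the polynomial `Φ_q(X, j(t^(q^n)))` over `FT n`; `j(t^(q^(n+1)))` is a
  root along `α` (`phiT_eval₂_aT`), and for `n ≥ 1` so is `j(t^(q^(n-1)))` (`phiT_isRoot`);
* **`exists_unique_ext_zero`** : for a field `L`, `φ : FT 0 →+* L` and ANY root `x` of `Φ_q(X, φ j)`
  there is a unique `φ' : FT 1 →+* L` with `φ' ∘ α = φ`, `φ' (j(t^q)) = x`;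
* **`exists_unique_ext_succ`** : for `φ : FT (n+1) →+* L` and a root `x` of
  `Φ_q(X, φ j(t^(q^(n+1))))` with `x ≠ φ j(t^(q^n))` (no backtracking) there is a unique
  `φ' : FT (n+2) →+* L` with `φ' ∘ α = φ`, `φ' (j(t^(q^(n+2)))) = x`.
-/
import Mathlib
import Fermat.Agent.S45lib.Tower.HomExtAbs
import Fermat.Agent.S45lib.Tower.Level
import Fermat.Agent.S36lib.Eis.Shift

set_option autoImplicit false
set_option linter.unusedSectionVars false
set_option linter.unusedVariables false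
set_option linter.style.haveILetI false

noncomputable section

namespace Fermat.Agent.S45lib.Tower

open ModularCurve Polynomial Module Fermat.Agent.S18lib Fermat.Agent.S18lib.V Fermat.Agent.S28lib
open Fermat.Agent.LSb.Val Fermat.Agent.S36lib.AL Fermat.Agent.S36lib.Eis
open Fermat.Agent.S37lib.ConjNorm

local notation "Qb" => AlgebraicClosure ℚ

/-! ### the swapped modular equation -/

section Swap

variable (N : ℕ) [NeZero N] (q : ℕ) [Fact q.Prime] [NeZero q]

/-- **`Φ_q(j(t^d), j(t^(d q))) = 0`** -/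
theorem biEval₂_jd_swap (d : ℕ) [NeZero d] (hd : d ∣ N) (hdq : d * q ∣ N) :
    biEval₂ (iotaFB N) (phiZ q) (jd N d hd) (jd N (d * q) hdq) = 0 := by
  apply Subtype.val_injective
  have h1 := map_biEval₂ ((modularFunctionFieldBar N).val : FBar N →+* LaurentSeries Qb)
    (iotaFB N) (phiZ q) (jd N d hd) (jd N (d * q) hdq)
  have hq0 : ((q : ℕ) : Qb) ≠ 0 := Nat.cast_ne_zero.mpr (NeZero.ne q)
  have h2 := biEval₂_jqModC_qExpand (k := Qb) (p := q)
    (Fermat.Agent.S18lib.Gink.intToQbar : Zb →+* Qb) hq0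
  have h3 := map_biEval₂ (qExpand Qb d)
    ((HahnSeries.C : Qb →+* LaurentSeries Qb).comp
      (Fermat.Agent.S18lib.Gink.intToQbar : Zb →+* Qb)) (phiZ q)
    (jqModC Qb) (qExpand Qb q (jqModC Qb))
  rw [h2, map_zero] at h3
  have h4 : (qExpand Qb d).comp ((HahnSeries.C : Qb →+* LaurentSeries Qb).comp
      (Fermat.Agent.S18lib.Gink.intToQbar : Zb →+* Qb)) =
      (HahnSeries.C : Qb →+* LaurentSeries Qb).comp
        (Fermat.Agent.S18lib.Gink.intToQbar : Zb →+* Qb) := by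
    refine RingHom.ext fun c => ?_
    simp only [RingHom.comp_apply, qExpand_C]
  rw [h4, qExpand_qExpand] at h3
  show ((modularFunctionFieldBar N).val : FBar N →+* LaurentSeries Qb) _ = 0
  rw [h1, val_comp_iotaFB]
  have e1 : ((modularFunctionFieldBar N).val : FBar N →+* LaurentSeries Qb) (jd N (d * q) hdq) =
      qExpand Qb (d * q) (jqModC Qb) := coe_jd_eq N (d * q) hdq
  have e2 : ((modularFunctionFieldBar N).val : FBar N →+* LaurentSeries Qb) (jd N d hd) =
      qExpand Qb d (jqModC Qb) := coe_jd_eq N d hd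
  rw [e1, e2]
  exact h3.symm

end Swap

variable (M q : ℕ) [NeZero M] [NeZero q] [hqF : Fact q.Prime]

/-- `Φ_q(X, j(t^(q^n)))` over `FT n` -/
def phiT (n : ℕ) : (FT M q n)[X] :=
  (phiZ q).map (Polynomial.eval₂RingHom (iotaFB (lev M q n)) (jT M q n n le_rfl))

theorem phiT_monic (n : ℕ) : (phiT M q n).Monic := (phiZ_monic q).map _

theorem phiT_natDegree (n : ℕ) : (phiT M q n).natDegree = q + 1 := by
  rw [phiT, (phiZ_monic q).natDegree_map, phiZ_natDegree]

/-- evaluation of `phiT` along a homomorphism -/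
theorem phiT_eval₂ {R : Type*} [CommRing R] (n : ℕ) (φ : FT M q n →+* R) (x : R) :
    (phiT M q n).eval₂ φ x =
      biEval₂ (φ.comp (iotaFB (lev M q n))) (phiZ q) x (φ (jT M q n n le_rfl)) := by
  rw [phiT, Polynomial.eval₂_map, comp_eval₂RingHom, biEval₂]

theorem aT_comp_iotaFB (n : ℕ) :
    ((aT M q n : FT M q n →ₐ[Qb] FT M q (n + 1)) : FT M q n →+* FT M q (n + 1)).comp
      (iotaFB (lev M q n)) = iotaFB (lev M q (n + 1)) := by
  refine RingHom.ext fun c => ?_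
  simp only [iotaFB, RingHom.comp_apply, RingHom.coe_coe, AlgHom.commutes]

/-- `j(t^(q^(n+1)))` is a root of `Φ_q(X, j(t^(q^n)))` along `α` -/
theorem phiT_eval₂_aT (n : ℕ) :
    (phiT M q n).eval₂ ((aT M q n : FT M q n →ₐ[Qb] FT M q (n + 1)) :
      FT M q n →+* FT M q (n + 1)) (jT M q (n + 1) (n + 1) le_rfl) = 0 := by
  rw [phiT_eval₂, aT_comp_iotaFB]
  have e : ((aT M q n : FT M q n →ₐ[Qb] FT M q (n + 1)) : FT M q n →+* FT M q (n + 1))
      (jT M q n n le_rfl) = jT M q (n + 1) n (Nat.le_succ n) := aT_jT M q n n le_rfl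
  rw [e]
  exact biEval₂_jd_mul (lev M q (n + 1)) q (q ^ n) (pow_dvd_lev M q (Nat.le_succ n))
    (pow_dvd_lev M q (le_refl (n + 1)))

/-- `j(t^(q^n))` is a root of `Φ_q(X, j(t^(q^(n+1))))` -/
theorem phiT_isRoot (n : ℕ) : (phiT M q (n + 1)).IsRoot (jT M q (n + 1) n (Nat.le_succ n)) := by
  show (phiT M q (n + 1)).eval _ = 0
  rw [← Polynomial.eval₂_id, phiT_eval₂, RingHom.id_comp]
  exact biEval₂_jd_swap (lev M q (n + 1)) q (q ^ n) (pow_dvd_lev M q (Nat.le_succ n))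
    (pow_dvd_lev M q (le_refl (n + 1)))

/-- the cofactor `Φ_q(X, j(t^(q^(n+1)))) / (X - j(t^(q^n)))` -/
def quoT (n : ℕ) : (FT M q (n + 1))[X] :=
  phiT M q (n + 1) /ₘ (X - C (jT M q (n + 1) n (Nat.le_succ n)))

theorem quoT_mul (n : ℕ) :
    (X - C (jT M q (n + 1) n (Nat.le_succ n))) * quoT M q n = phiT M q (n + 1) :=
  mul_divByMonic_eq_of_isRoot (phiT_isRoot M q n)

theorem quoT_monic (n : ℕ) : (quoT M q n).Monic :=
  divByMonic_monic (phiT_monic M q (n + 1)) (phiT_isRoot M q n)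

theorem quoT_natDegree (n : ℕ) : (quoT M q n).natDegree = q := by
  have h := natDegree_divByMonic_of_isRoot (phiT_monic M q (n + 1)) (phiT_isRoot M q n)
  rw [phiT_natDegree] at h
  exact Nat.succ_injective h

/-- evaluation of the cofactor along a homomorphism into a domain: a root of `Φ_q` different from
the image of `j(t^(q^n))` is a root of the cofactor -/
theorem quoT_eval₂_eq_zero {R : Type*} [CommRing R] [IsDomain R] (n : ℕ)
    (φ : FT M q (n + 1) →+* R) {x : R} (hx : (phiT M q (n + 1)).eval₂ φ x = 0)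
    (hne : x ≠ φ (jT M q (n + 1) n (Nat.le_succ n))) : (quoT M q n).eval₂ φ x = 0 := by
  rw [← quoT_mul M q n, Polynomial.eval₂_mul, Polynomial.eval₂_sub, Polynomial.eval₂_X,
    Polynomial.eval₂_C] at hx
  rcases mul_eq_zero.mp hx with h | h
  · exact absurd (sub_eq_zero.mp h) hne
  · exact h

theorem jT_top_ne (n : ℕ) :
    jT M q (n + 2) (n + 2) le_rfl ≠ jT M q (n + 2) n (by omega) := by
  intro h
  have h1 := congrArg (fun f : FT M q (n + 2) => (f : LaurentSeries Qb).order) h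
  simp only [coe_jT] at h1
  rw [Fermat.Agent.S28lib.order_qExpand, Fermat.Agent.S28lib.order_qExpand,
    Fermat.Agent.S28lib.order_jqModC] at h1
  have hq2 := hqF.out.two_le
  have h2 : q ^ n < q ^ (n + 2) := Nat.pow_lt_pow_right hq2 (by omega)
  have h3 : ((q ^ (n + 2) : ℕ) : ℤ) = ((q ^ n : ℕ) : ℤ) := by linarith
  have h4 : q ^ (n + 2) = q ^ n := by exact_mod_cast h3
  omega

/-- **HOM-EXTENSION, first step** (`q ∤ M`, degree `q + 1`): all roots are allowed. -/
theorem exists_unique_ext_zero (hqM : ¬ q ∣ M) {L : Type*} [Field L] (φ : FT M q 0 →+* L) {x : L}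
    (hx : (phiT M q 0).eval₂ φ x = 0) :
    ∃! φ' : FT M q 1 →+* L,
      φ'.comp ((aT M q 0 : FT M q 0 →ₐ[Qb] FT M q 1) : FT M q 0 →+* FT M q 1) = φ ∧
        φ' (jT M q 1 1 le_rfl) = x :=
  exists_unique_ringHom_ext
    ((aT M q 0 : FT M q 0 →ₐ[Qb] FT M q 1) : FT M q 0 →+* FT M q 1) (finite_aT M q 0)
    (eq_zero_of_eval₂_aT M q hqF.out hqM 0) (finrank_aT_lt M q hqF.out hqM 0) (phiT_monic M q 0)
    (by rw [phiT_natDegree]; exact (finrank_aT_zero M q hqF.out hqM).symm)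
    (phiT_eval₂_aT M q 0) φ hx

/-- **HOM-EXTENSION, higher steps** (degree `q`): all roots except the backtracking one. -/
theorem exists_unique_ext_succ (hqM : ¬ q ∣ M) (n : ℕ) {L : Type*} [Field L]
    (φ : FT M q (n + 1) →+* L) {x : L} (hx : (phiT M q (n + 1)).eval₂ φ x = 0)
    (hne : x ≠ φ (jT M q (n + 1) n (Nat.le_succ n))) :
    ∃! φ' : FT M q (n + 2) →+* L,
      φ'.comp ((aT M q (n + 1) : FT M q (n + 1) →ₐ[Qb] FT M q (n + 2)) :
        FT M q (n + 1) →+* FT M q (n + 2)) = φ ∧ φ' (jT M q (n + 2) (n + 2) le_rfl) = x := by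
  refine exists_unique_ringHom_ext
    ((aT M q (n + 1) : FT M q (n + 1) →ₐ[Qb] FT M q (n + 2)) :
      FT M q (n + 1) →+* FT M q (n + 2)) (finite_aT M q (n + 1))
    (eq_zero_of_eval₂_aT M q hqF.out hqM (n + 1)) (finrank_aT_lt M q hqF.out hqM (n + 1))
    (quoT_monic M q n)
    (by rw [quoT_natDegree]; exact (finrank_aT_succ M q hqF.out n).symm) ?_ φ
    (quoT_eval₂_eq_zero M q n φ hx hne)
  refine quoT_eval₂_eq_zero M q n _ (phiT_eval₂_aT M q (n + 1)) ?_
  have e : ((aT M q (n + 1) : FT M q (n + 1) →ₐ[Qb] FT M q (n + 2)) :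
      FT M q (n + 1) →+* FT M q (n + 2)) (jT M q (n + 1) n (Nat.le_succ n)) =
      jT M q (n + 2) n (by omega) := aT_jT M q (n + 1) n (Nat.le_succ n)
  rw [e]
  exact jT_top_ne M q n

/-- **HOM-EXTENSION, step `n → n + 1` for `n ≥ 1`** (index form of `exists_unique_ext_succ`). -/
theorem exists_unique_ext_pos (hqM : ¬ q ∣ M) (n : ℕ) (hn : 0 < n) {L : Type*} [Field L]
    (φ : FT M q n →+* L) {x : L} (hx : (phiT M q n).eval₂ φ x = 0)
    (hne : x ≠ φ (jT M q n (n - 1) (Nat.sub_le n 1))) :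
    ∃! φ' : FT M q (n + 1) →+* L,
      φ'.comp ((aT M q n : FT M q n →ₐ[Qb] FT M q (n + 1)) :
        FT M q n →+* FT M q (n + 1)) = φ ∧ φ' (jT M q (n + 1) (n + 1) le_rfl) = x := by
  obtain ⟨m, rfl⟩ : ∃ m, n = m + 1 := ⟨n - 1, by omega⟩
  exact exists_unique_ext_succ M q hqM m φ hx hne

/-- **uniqueness along one step**: a homomorphism out of `FT (n+1)` is determined by its
restriction along `α` and its value at `j(t^(q^(n+1)))`. -/
theorem ringHom_ext_aT (hqM : ¬ q ∣ M) (n : ℕ) {L : Type*} [Field L]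
    {φ₁ φ₂ : FT M q (n + 1) →+* L}
    (h₁ : φ₁.comp ((aT M q n : FT M q n →ₐ[Qb] FT M q (n + 1)) : FT M q n →+* FT M q (n + 1)) =
      φ₂.comp ((aT M q n : FT M q n →ₐ[Qb] FT M q (n + 1)) : FT M q n →+* FT M q (n + 1)))
    (h₂ : φ₁ (jT M q (n + 1) (n + 1) le_rfl) = φ₂ (jT M q (n + 1) (n + 1) le_rfl)) : φ₁ = φ₂ :=
  ringHom_ext_of_forall_natDegree
    ((aT M q n : FT M q n →ₐ[Qb] FT M q (n + 1)) : FT M q n →+* FT M q (n + 1)) (finite_aT M q n)
    (eq_zero_of_eval₂_aT M q hqF.out hqM n) (finrank_aT_lt M q hqF.out hqM n) h₁ h₂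

/-- the inclusion `FT 0 → FT n` -/
def inclT (n : ℕ) : FT M q 0 →ₐ[Qb] FT M q n :=
  inclL (N := lev M q 0) (N' := lev M q n) (by rw [lev_eq M q n, lev_zero]; exact Dvd.intro _ rfl)

theorem coe_inclT (n : ℕ) (f : FT M q 0) :
    ((inclT M q n f : FT M q n) : LaurentSeries Qb) = (f : LaurentSeries Qb) :=
  coe_inclL _ f

theorem aT_inclT (n : ℕ) (f : FT M q 0) : aT M q n (inclT M q n f) = inclT M q (n + 1) f :=
  Subtype.ext (by rw [coe_aT, coe_inclT, coe_inclT])

/-- **uniqueness along the tower**: a homomorphism out of `FT n` is determined by its restriction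
to `FT 0` and its values at the `j(t^(q^i))`, `i ≤ n`. -/
theorem ringHom_ext_FT (hqM : ¬ q ∣ M) (n : ℕ) {L : Type*} [Field L] {φ₁ φ₂ : FT M q n →+* L}
    (h₀ : ∀ f : FT M q 0, φ₁ (inclT M q n f) = φ₂ (inclT M q n f))
    (hj : ∀ (i : ℕ) (hi : i ≤ n), φ₁ (jT M q n i hi) = φ₂ (jT M q n i hi)) : φ₁ = φ₂ := by
  induction n with
  | zero =>
    refine RingHom.ext fun f => ?_
    have e : inclT M q 0 f = f := Subtype.ext (coe_inclT M q 0 f)
    have := h₀ f
    rwa [e] at this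
  | succ n ih =>
    refine ringHom_ext_aT M q hqM n (ih ?_ ?_) (hj (n + 1) le_rfl)
    · intro f
      simp only [RingHom.comp_apply, RingHom.coe_coe]
      rw [aT_inclT]
      exact h₀ f
    · intro i hi
      simp only [RingHom.comp_apply, RingHom.coe_coe]
      rw [aT_jT]
      exact hj i (Nat.le_succ_of_le hi)

end Fermat.Agent.S45lib.Tower
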