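/-
S45lib / Tower / Cusp  (helper1)  --  Project J, (KM) tower step

**The cusp homomorphisms** `ι_{a,ζ} : FT (a + b) →+* ℚ̄((t))` (`FT n = ℚ̄(X₀(M q^n))`): the
`t`-expansion at the cusp of type `(a, b)` — `a` Frobenius steps followed by `b` Verschiebung steps
— twisted by a primitive `q^b`-th root of unity `ζ`.  Recursion on `b`:

* `ι^{(0)}` = the standard expansion of `FT a`;
* `ι^{(b+1)}_ζ` = the unique extension (`HomExt`) of `(t ↦ t^q) ∘ ι^{(b)}_{ζ^q}` with
  `j(t^(q^(a+b+1))) ↦ j(ζ t^(q^a))`.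

`IsCuspHom a b ζ φ` is the recursive characterisation, `cuspVal a b ζ i` the value at
`j(t^(q^i))`; `existsUnique_isCuspHom`; `cuspHom`; constants, values, and the restriction to
`FT a` (`= (t ↦ t^(q^b)) ∘ std`).
-/
import Mathlib
import Fermat.Agent.S45lib.Tower.HomExt

set_option autoImplicit false
set_option linter.unusedSectionVars false
set_option linter.unusedVariables false
set_option linter.style.haveILetI false

noncomputable section

namespace Fermat.Agent.S45lib.Tower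

open ModularCurve Polynomial Module Fermat.Agent.S18lib Fermat.Agent.S18lib.V Fermat.Agent.S28lib
open Fermat.Agent.LSb.Val Fermat.Agent.S36lib.AL Fermat.Agent.S36lib.Eis
open Fermat.Agent.S37lib.ConjNorm

local notation "Qb" => AlgebraicClosure ℚ

/-! ### series identities -/

section Series

variable (q : ℕ) [hqF : Fact q.Prime] [NeZero q]

/-- constants `Zb → ℚ̄((t))` -/
def iotaLS : Zb →+* LaurentSeries Qb :=
  (HahnSeries.C : Qb →+* LaurentSeries Qb).comp
    (Fermat.Agent.S18lib.Gink.intToQbar : Zb →+* Qb)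

/-- **`Φ_q(j(ζ t^e), j(ζ^q t^(q e))) = 0`** -/
theorem biEval₂_jS (ζ : Qbˣ) (e : ℕ) [NeZero e] [NeZero (q * e)] :
    biEval₂ iotaLS (phiZ q) (jS Qb ζ e) (jS Qb (ζ ^ q) (q * e)) = 0 := by
  have hq0 : ((q : ℕ) : Qb) ≠ 0 := Nat.cast_ne_zero.mpr (NeZero.ne q)
  have h2 := biEval₂_jqModC_qExpand (k := Qb) (p := q)
    (Fermat.Agent.S18lib.Gink.intToQbar : Zb →+* Qb) hq0
  have h3 := map_biEval₂ ((qExpand Qb e).comp (twist ζ))
    ((HahnSeries.C : Qb →+* LaurentSeries Qb).comp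
      (Fermat.Agent.S18lib.Gink.intToQbar : Zb →+* Qb)) (phiZ q)
    (jqModC Qb) (qExpand Qb q (jqModC Qb))
  rw [h2, map_zero] at h3
  have h4 : ((qExpand Qb e).comp (twist ζ)).comp ((HahnSeries.C : Qb →+* LaurentSeries Qb).comp
      (Fermat.Agent.S18lib.Gink.intToQbar : Zb →+* Qb)) = iotaLS := by
    refine RingHom.ext fun c => ?_
    show qExpand Qb e (twist ζ (HahnSeries.C (Fermat.Agent.S18lib.Gink.intToQbar c))) =
      HahnSeries.C (Fermat.Agent.S18lib.Gink.intToQbar c)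
    rw [twist_C, qExpand_C]
  rw [h4] at h3
  have e1 : ((qExpand Qb e).comp (twist ζ)) (jqModC Qb) = jS Qb ζ e := rfl
  have e2 : ((qExpand Qb e).comp (twist ζ)) (qExpand Qb q (jqModC Qb)) = jS Qb (ζ ^ q) (q * e) := by
    simp only [RingHom.comp_apply]
    rw [twist_qExpand, qExpand_qExpand, jS]
    exact qExpand_congr (mul_comm e q) _
  rw [e1, e2] at h3
  exact h3.symm

theorem jS_ne_jS_one {ζ : Qbˣ} (hζ : ζ ≠ 1) (e : ℕ) [NeZero e] : jS Qb ζ e ≠ jS Qb 1 e := by
  intro h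
  have h1 := congrArg (fun f : LaurentSeries Qb => f.coeff (-(e : ℤ))) h
  simp only [jS_coeff_neg] at h1
  apply hζ
  have : (ζ⁻¹ : Qbˣ) = (1 : Qbˣ)⁻¹ := Units.ext h1
  simpa using this

end Series

variable (M q : ℕ) [NeZero M] [NeZero q] [hqF : Fact q.Prime]

/-- the standard expansion of `FT n` -/
def stdT (n : ℕ) : FT M q n →+* LaurentSeries Qb :=
  ((modularFunctionFieldBar (lev M q n)).val : FT M q n →+* LaurentSeries Qb)

theorem stdT_apply (n : ℕ) (f : FT M q n) : stdT M q n f = (f : LaurentSeries Qb) := rfl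

theorem stdT_algebraMap (n : ℕ) (c : Qb) :
    stdT M q n (algebraMap Qb (FT M q n) c) = HahnSeries.C c :=
  Kummer.algebraMap_laurent_eq_C c

/-- the value of the cusp homomorphism at `j(t^(q^i))` -/
def cuspVal (a : ℕ) : ℕ → Qbˣ → ℕ → LaurentSeries Qb
  | 0, _, i => qExpand Qb (q ^ i) (jqModC Qb)
  | b + 1, ζ, i =>
    if i = a + b + 1 then jS Qb ζ (q ^ a) else qExpand Qb q (cuspVal a b (ζ ^ q) i)

/-- the exponent of the order of `cuspVal` -/
def cuspExp (a : ℕ) : ℕ → ℕ → ℕ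
  | 0, i => i
  | b + 1, i => if i = a + b + 1 then a else cuspExp a b i + 1

theorem cuspExp_top (a b : ℕ) : cuspExp a b (a + b) = a := by
  cases b with
  | zero => rfl
  | succ b =>
    show cuspExp a (b + 1) (a + b + 1) = a
    rw [cuspExp, if_pos rfl]

theorem cuspExp_pred (a b : ℕ) : cuspExp a (b + 1) (a + b) = a + 1 := by
  rw [cuspExp, if_neg (by omega), cuspExp_top]

theorem order_cuspVal (a b : ℕ) (ζ : Qbˣ) (i : ℕ) :
    (cuspVal q a b ζ i).order = -((q ^ cuspExp a b i : ℕ) : ℤ) := by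
  induction b generalizing ζ with
  | zero =>
    rw [cuspVal, cuspExp, order_qExpand, order_jqModC]
    ring
  | succ b ih =>
    rw [cuspVal, cuspExp]
    split_ifs with h
    · exact order_jS Qb ζ (q ^ a)
    · rw [order_qExpand, ih, pow_succ]
      push_cast
      ring

/-- the value at the top generator -/
theorem cuspVal_top (a b : ℕ) {ζ : Qbˣ} (hζ : IsPrimitiveRoot ζ (q ^ b)) :
    cuspVal q a b ζ (a + b) = jS Qb ζ (q ^ a) := by
  cases b with
  | zero =>
    have h1 : ζ = 1 := by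
      have := hζ.pow_eq_one
      simpa using this
    rw [h1, cuspVal, jS_one, jAt_of_neZero]
    rfl
  | succ b =>
    show cuspVal q a (b + 1) ζ (a + b + 1) = jS Qb ζ (q ^ a)
    rw [cuspVal, if_pos rfl]

/-- the recursive characterisation of the cusp homomorphisms -/
def IsCuspHom (a : ℕ) : (b : ℕ) → Qbˣ → (FT M q (a + b) →+* LaurentSeries Qb) → Prop
  | 0, _, φ => φ = stdT M q a
  | b + 1, ζ, φ =>
    (∃ ψ : FT M q (a + b) →+* LaurentSeries Qb, IsCuspHom a b (ζ ^ q) ψ ∧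
      φ.comp ((aT M q (a + b) : FT M q (a + b) →ₐ[Qb] FT M q (a + b + 1)) :
        FT M q (a + b) →+* FT M q (a + b + 1)) = (qExpand Qb q).comp ψ) ∧
      φ (jT M q (a + b + 1) (a + b + 1) le_rfl) = jS Qb ζ (q ^ a)

variable {M q}

theorem IsCuspHom.map_algebraMap {a b : ℕ} {ζ : Qbˣ} {φ : FT M q (a + b) →+* LaurentSeries Qb}
    (h : IsCuspHom M q a b ζ φ) (c : Qb) :
    φ (algebraMap Qb (FT M q (a + b)) c) = HahnSeries.C c := by
  induction b generalizing ζ with
  | zero =>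
    rw [IsCuspHom] at h
    rw [h]
    exact stdT_algebraMap M q a c
  | succ b ih =>
    obtain ⟨⟨ψ, hψ, hcomp⟩, -⟩ := h
    have h1 := congrArg (fun f : FT M q (a + b) →+* LaurentSeries Qb =>
      f (algebraMap Qb (FT M q (a + b)) c)) hcomp
    simp only [RingHom.comp_apply, RingHom.coe_coe, AlgHom.commutes] at h1
    rw [ih hψ, qExpand_C] at h1
    exact h1

theorem IsCuspHom.map_jT {a b : ℕ} {ζ : Qbˣ} {φ : FT M q (a + b) →+* LaurentSeries Qb}
    (h : IsCuspHom M q a b ζ φ) (i : ℕ) (hi : i ≤ a + b) :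
    φ (Tower.jT M q (a + b) i hi) = cuspVal q a b ζ i := by
  induction b generalizing ζ with
  | zero =>
    rw [IsCuspHom] at h
    rw [h, cuspVal]
    exact coe_jT M q a i hi
  | succ b ih =>
    obtain ⟨⟨ψ, hψ, hcomp⟩, htop⟩ := h
    rw [cuspVal]
    split_ifs with hi'
    · subst hi'
      exact htop
    · have hi'' : i ≤ a + b := by omega
      have h1 := congrArg (fun f : FT M q (a + b) →+* LaurentSeries Qb =>
        f (Tower.jT M q (a + b) i hi'')) hcomp
      simp only [RingHom.comp_apply, RingHom.coe_coe] at h1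
      rw [aT_jT, ih hψ hi''] at h1
      exact h1


variable (M q)

/-- one step of the hom-extension, uniform in `n` -/
theorem exists_unique_ext_step (hqM : ¬ q ∣ M) (n : ℕ) {L : Type*} [Field L]
    (φ : FT M q n →+* L) {x : L} (hx : (phiT M q n).eval₂ φ x = 0)
    (hne : 0 < n → x ≠ φ (Tower.jT M q n (n - 1) (Nat.sub_le n 1))) :
    ∃! φ' : FT M q (n + 1) →+* L,
      φ'.comp ((aT M q n : FT M q n →ₐ[Qb] FT M q (n + 1)) :
        FT M q n →+* FT M q (n + 1)) = φ ∧ φ' (Tower.jT M q (n + 1) (n + 1) le_rfl) = x := by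
  rcases Nat.eq_zero_or_pos n with rfl | hn
  · exact exists_unique_ext_zero M q hqM φ hx
  · exact exists_unique_ext_pos M q hqM n hn φ hx (hne hn)

/-- no backtracking at the cusp step -/
theorem jS_ne_qExpand_cuspVal (a b : ℕ) {ζ : Qbˣ} (hζ : IsPrimitiveRoot ζ (q ^ (b + 1)))
    (hpos : 0 < a + b) :
    jS Qb ζ (q ^ a) ≠ qExpand Qb q (cuspVal q a b (ζ ^ q) (a + b - 1)) := by
  have hq2 := hqF.out.two_le
  cases b with
  | zero =>
    have ha : 0 < a := by omega
    have h1 : ζ ≠ 1 := by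
      intro h1
      have h2 := hζ.pow_eq_one
      have h3 : (q ^ (0 + 1)) = 1 := by
        have := hζ.eq_orderOf
        rw [h1, orderOf_one] at this
        exact this
      rw [zero_add, pow_one] at h3
      omega
    have h2 : qExpand Qb q (cuspVal q a 0 (ζ ^ q) (a + 0 - 1)) = jS Qb 1 (q ^ a) := by
      rw [cuspVal, qExpand_qExpand, jS_one, jAt_of_neZero]
      refine qExpand_congr ?_ _
      rw [add_zero, ← pow_succ', Nat.sub_add_cancel ha]
    rw [h2]
    exact jS_ne_jS_one h1 (q ^ a)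
  | succ b =>
    intro h
    have h1 : (jS Qb ζ (q ^ a)).order =
        (qExpand Qb q (cuspVal q a (b + 1) (ζ ^ q) (a + (b + 1) - 1))).order := by rw [← h]
    have e1 : a + (b + 1) - 1 = a + b := by omega
    rw [order_jS, order_qExpand, order_cuspVal, e1, cuspExp_pred] at h1
    have h2 : q ^ a < q * q ^ (a + 1) := by
      calc q ^ a < q ^ (a + 1) := Nat.pow_lt_pow_right hq2 (by omega)
        _ ≤ q * q ^ (a + 1) := Nat.le_mul_of_pos_left _ (by omega)
    have h3 : ((q ^ a : ℕ) : ℤ) = ((q * q ^ (a + 1) : ℕ) : ℤ) := by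
      push_cast at h1 ⊢
      linarith
    have h4 : q ^ a = q * q ^ (a + 1) := by exact_mod_cast h3
    omega

/-- **existence and uniqueness of the cusp homomorphisms** -/
theorem existsUnique_isCuspHom (hqM : ¬ q ∣ M) (a b : ℕ) (ζ : Qbˣ)
    (hζ : IsPrimitiveRoot ζ (q ^ b)) :
    ∃! φ : FT M q (a + b) →+* LaurentSeries Qb, IsCuspHom M q a b ζ φ := by
  induction b generalizing ζ with
  | zero => exact ⟨stdT M q a, rfl, fun φ h => h⟩
  | succ b ih =>
    have hq0 : 0 < q := hqF.out.pos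
    have hζq : IsPrimitiveRoot (ζ ^ q) (q ^ b) :=
      hζ.pow (pow_pos hq0 _) (pow_succ' q b)
    obtain ⟨ψ, hψ, hψu⟩ := ih (ζ ^ q) hζq
    have hconst : ((qExpand Qb q).comp ψ).comp (iotaFB (lev M q (a + b))) = iotaLS := by
      refine RingHom.ext fun c => ?_
      show qExpand Qb q (ψ (algebraMap Qb (FT M q (a + b))
        (Fermat.Agent.S18lib.Gink.intToQbar c))) = _
      rw [hψ.map_algebraMap, qExpand_C]
      rfl
    have hx : (phiT M q (a + b)).eval₂ ((qExpand Qb q).comp ψ) (jS Qb ζ (q ^ a)) = 0 := by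
      rw [phiT_eval₂, hconst, RingHom.comp_apply, hψ.map_jT, cuspVal_top q a b hζq,
        S28lib.qExpand_jS]
      exact biEval₂_jS q ζ (q ^ a)
    have hne : 0 < a + b → jS Qb ζ (q ^ a) ≠
        ((qExpand Qb q).comp ψ) (Tower.jT M q (a + b) (a + b - 1) (Nat.sub_le _ 1)) := by
      intro hpos
      rw [RingHom.comp_apply, hψ.map_jT]
      exact jS_ne_qExpand_cuspVal q a b hζ hpos
    obtain ⟨φ, ⟨hφ1, hφ2⟩, hφu⟩ := exists_unique_ext_step M q hqM (a + b) _ hx hne
    refine ⟨φ, ⟨⟨ψ, hψ, hφ1⟩, hφ2⟩, ?_⟩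
    rintro φ' ⟨⟨ψ', hψ', hφ1'⟩, hφ2'⟩
    have e : ψ' = ψ := hψu ψ' hψ'
    subst e
    exact hφu φ' ⟨hφ1', hφ2'⟩

/-- **the cusp homomorphism** `ι_{a,ζ} : FT (a + b) →+* ℚ̄((t))` -/
def cuspHom (hqM : ¬ q ∣ M) (a b : ℕ) (ζ : Qbˣ) (hζ : IsPrimitiveRoot ζ (q ^ b)) :
    FT M q (a + b) →+* LaurentSeries Qb :=
  (existsUnique_isCuspHom M q hqM a b ζ hζ).exists.choose

theorem isCuspHom_cuspHom (hqM : ¬ q ∣ M) (a b : ℕ) (ζ : Qbˣ) (hζ : IsPrimitiveRoot ζ (q ^ b)) :
    IsCuspHom M q a b ζ (cuspHom M q hqM a b ζ hζ) :=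
  (existsUnique_isCuspHom M q hqM a b ζ hζ).exists.choose_spec

theorem IsCuspHom.eq_cuspHom (hqM : ¬ q ∣ M) {a b : ℕ} {ζ : Qbˣ} (hζ : IsPrimitiveRoot ζ (q ^ b))
    {φ : FT M q (a + b) →+* LaurentSeries Qb} (h : IsCuspHom M q a b ζ φ) :
    φ = cuspHom M q hqM a b ζ hζ :=
  (existsUnique_isCuspHom M q hqM a b ζ hζ).unique h (isCuspHom_cuspHom M q hqM a b ζ hζ)

end Fermat.Agent.S45lib.Tower
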