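/-
S45lib / Tower / Deg  (helper1)  --  Project J, (KM) tower step

**The degeneracy maps of the tower** `FT m → FT n`, `f(t) ↦ f(t^(q^s))` (`m + s ≤ n`):

* `degT M q m n s h : FT m →ₐ[ℚ̄] FT n`, `coe_degT`, composition, values on the generators
  `j(t^d)`, the special cases `aT = degT n (n+1) 0`, `inclT n = degT 0 n 0`;
* `galAutBar_degT` : Galois equivariance (coefficientwise action);
* `wT_degT` : the Atkin–Lehner involutions intertwine `degT m n s` and `degT m n (n - m - s)`;
* `ringHom_ext_FBar` : a ring homomorphism out of `FBar N` is determined by its values on the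
  constants and the `j(t^d)`, `d ∣ N`.
-/
import Mathlib
import Fermat.Agent.S45lib.Tower.HomExt
import Fermat.Agent.S29lib.GH.HeckeGalois
import Fermat.Agent.S36lib.Norm.DescendInst

set_option autoImplicit false
set_option linter.unusedSectionVars false
set_option linter.unusedVariables false
set_option linter.style.haveILetI false

noncomputable section

namespace Fermat.Agent.S45lib.Tower

open ModularCurve Polynomial Module Fermat.Agent.S18lib Fermat.Agent.S18lib.V Fermat.Agent.S28lib
open Fermat.Agent.LSb.Val Fermat.Agent.S36lib.AL Fermat.Agent.S36lib.Eis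
open Fermat.Agent.S29lib.GH

local notation "Qb" => AlgebraicClosure ℚ
local notation "GQ" => (AlgebraicClosure ℚ ≃ₐ[ℚ] AlgebraicClosure ℚ)

/-- a ring homomorphism out of `FBar N` is determined by the constants and the `j(t^d)` -/
theorem ringHom_ext_FBar (N : ℕ) [NeZero N] {R : Type*} [Field R] {φ₁ φ₂ : FBar N →+* R}
    (hc : ∀ a : Qb, φ₁ (algebraMap Qb (FBar N) a) = φ₂ (algebraMap Qb (FBar N) a))
    (hj : ∀ (d : ℕ) [NeZero d] (hd : d ∣ N), φ₁ (jd N d hd) = φ₂ (jd N d hd)) : φ₁ = φ₂ := by
  have key : RingHom.eqLocusField φ₁ φ₂ = ⊤ := by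
    apply subfield_eq_top (L := Qb) N
    · intro a
      exact hc a
    · intro d _ hd
      exact hj d hd
  refine RingHom.ext fun f => ?_
  have : f ∈ RingHom.eqLocusField φ₁ φ₂ := by rw [key]; exact Subfield.mem_top f
  exact this

variable (M q : ℕ) [NeZero M] [NeZero q]

theorem lev_mul_pow_dvd {m n s : ℕ} (h : m + s ≤ n) : lev M q m * q ^ s ∣ lev M q n := by
  rw [lev_eq, lev_eq, mul_assoc, ← pow_add]
  exact Nat.mul_dvd_mul_left M (pow_dvd_pow q h)

instance pow_neZero' (s : ℕ) : NeZero (q ^ s) := ⟨pow_ne_zero s (NeZero.ne q)⟩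

/-- the degeneracy map `f(t) ↦ f(t^(q^s)) : FT m → FT n` -/
def degT (m n s : ℕ) (h : m + s ≤ n) : FT M q m →ₐ[Qb] FT M q n :=
  (inclL (N := lev M q m * q ^ s) (N' := lev M q n) (lev_mul_pow_dvd M q h)).comp
    (heckeBetaBar Qb (lev M q m) (q ^ s))

theorem coe_degT (m n s : ℕ) (h : m + s ≤ n) (f : FT M q m) :
    ((degT M q m n s h f : FT M q n) : LaurentSeries Qb) =
      qExpand Qb (q ^ s) (f : LaurentSeries Qb) := by
  rw [degT, AlgHom.comp_apply, coe_inclL, coe_heckeBetaBar]

theorem degT_degT (m n p s s' : ℕ) (h : m + s ≤ n) (h' : n + s' ≤ p) (f : FT M q m) :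
    degT M q n p s' h' (degT M q m n s h f) = degT M q m p (s + s') (by omega) f := by
  apply Subtype.ext
  rw [coe_degT, coe_degT, coe_degT, qExpand_qExpand]
  exact qExpand_congr (by rw [pow_add, mul_comm]) _

theorem aT_eq_degT (n : ℕ) (f : FT M q n) : aT M q n f = degT M q n (n + 1) 0 (by omega) f := by
  apply Subtype.ext
  rw [coe_aT, coe_degT, qExpand_congr (pow_zero q), qExpand_one_apply]

theorem inclT_eq_degT [Fact q.Prime] (n : ℕ) (f : FT M q 0) :
    inclT M q n f = degT M q 0 n 0 (by omega) f := by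
  apply Subtype.ext
  rw [coe_inclT, coe_degT, qExpand_congr (pow_zero q), qExpand_one_apply]

theorem degT_zero_self (n : ℕ) (f : FT M q n) : degT M q n n 0 (by omega) f = f := by
  apply Subtype.ext
  rw [coe_degT, qExpand_congr (pow_zero q), qExpand_one_apply]

theorem degT_jd (m n s : ℕ) (h : m + s ≤ n) (d : ℕ) [NeZero d] (hd : d ∣ lev M q m)
    (hd' : d * q ^ s ∣ lev M q n) :
    haveI : NeZero (d * q ^ s) := ⟨mul_ne_zero (NeZero.ne d) (NeZero.ne (q ^ s))⟩
    degT M q m n s h (jd (lev M q m) d hd) = jd (lev M q n) (d * q ^ s) hd' := by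
  haveI : NeZero (d * q ^ s) := ⟨mul_ne_zero (NeZero.ne d) (NeZero.ne (q ^ s))⟩
  apply Subtype.ext
  rw [coe_degT, coe_jd_eq, coe_jd_eq, qExpand_qExpand]
  exact qExpand_congr (mul_comm _ _) _

theorem degT_jT (m n s : ℕ) (h : m + s ≤ n) (i : ℕ) (hi : i ≤ m) :
    degT M q m n s h (jT M q m i hi) = jT M q n (i + s) (by omega) := by
  apply Subtype.ext
  rw [coe_degT, coe_jT, coe_jT, qExpand_qExpand]
  exact qExpand_congr (by rw [pow_add, mul_comm]) _

theorem degT_algebraMap (m n s : ℕ) (h : m + s ≤ n) (c : Qb) :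
    degT M q m n s h (algebraMap Qb (FT M q m) c) = algebraMap Qb (FT M q n) c :=
  (degT M q m n s h).commutes c

/-- Galois equivariance of the degeneracy maps -/
theorem galAutBar_degT (m n s : ℕ) (h : m + s ≤ n) (σ : GQ) (f : FT M q m) :
    galAutBar (lev M q n) σ • degT M q m n s h f =
      degT M q m n s h (galAutBar (lev M q m) σ • f) := by
  apply Subtype.ext
  show ((galAutBar (lev M q n) σ • (degT M q m n s h f) : modularFunctionFieldBar (lev M q n)) :
      LaurentSeries Qb) =
    ((degT M q m n s h (galAutBar (lev M q m) σ • f) : modularFunctionFieldBar (lev M q n)) :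
      LaurentSeries Qb)
  rw [coe_arithmeticGalois_smul, coe_degT, coe_degT, coe_arithmeticGalois_smul, coeffMap_qExpand]

/-- **Atkin–Lehner and the degeneracy maps** -/
theorem wT_degT (hq : q.Prime) (hqM : ¬ q ∣ M) (m n s : ℕ) (h : m + s ≤ n) (f : FT M q m) :
    wT M q hq hqM n (degT M q m n s h f) =
      degT M q m n (n - m - s) (by omega) (wT M q hq hqM m f) := by
  have key : (((wT M q hq hqM n : FT M q n ≃ₐ[Qb] FT M q n) : FT M q n →+* FT M q n).comp
      ((degT M q m n s h : FT M q m →ₐ[Qb] FT M q n) : FT M q m →+* FT M q n)) =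
      ((degT M q m n (n - m - s) (by omega) : FT M q m →ₐ[Qb] FT M q n) :
        FT M q m →+* FT M q n).comp
        ((wT M q hq hqM m : FT M q m ≃ₐ[Qb] FT M q m) : FT M q m →+* FT M q m) := by
    apply ringHom_ext_FBar (lev M q m)
    · intro a
      simp only [RingHom.comp_apply, RingHom.coe_coe, AlgHom.commutes, AlgEquiv.commutes]
    · intro d' _ hd'
      simp only [RingHom.comp_apply, RingHom.coe_coe]
      have hd'0 : d' ≠ 0 := NeZero.ne d'
      have hd'' : d' ∣ M * q ^ m := by rw [← lev_eq]; exact hd'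
      obtain ⟨d, a, b, hdM, hQ, rfl, hd0, ha0, hb0⟩ := exists_factor_of_dvd M (q ^ m) hd'' hd'0
      haveI : NeZero d := ⟨hd0⟩
      haveI : NeZero a := ⟨ha0⟩
      haveI : NeZero b := ⟨hb0⟩
      haveI : NeZero (a * q ^ s) := ⟨mul_ne_zero ha0 (NeZero.ne (q ^ s))⟩
      haveI : NeZero (b * q ^ (n - m - s)) := ⟨mul_ne_zero hb0 (NeZero.ne (q ^ (n - m - s)))⟩
      haveI : NeZero (d * a * q ^ s) := ⟨mul_ne_zero (mul_ne_zero hd0 ha0) (NeZero.ne (q ^ s))⟩
      haveI : NeZero (d * b) := ⟨mul_ne_zero hd0 hb0⟩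
      haveI : NeZero (d * b * q ^ (n - m - s)) :=
        ⟨mul_ne_zero (mul_ne_zero hd0 hb0) (NeZero.ne (q ^ (n - m - s)))⟩
      have hQ' : q ^ n = (a * q ^ s) * (b * q ^ (n - m - s)) := by
        have e : n = m + (s + (n - m - s)) := by omega
        calc q ^ n = q ^ (m + (s + (n - m - s))) := by rw [← e]
          _ = (a * b) * (q ^ s * q ^ (n - m - s)) := by rw [pow_add, pow_add, hQ]
          _ = _ := by ring
      have hdb : d * b ∣ lev M q m := by
        rw [lev_eq, hQ]
        exact Nat.mul_dvd_mul hdM (Dvd.intro_left a rfl)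
      have hda' : d * (a * q ^ s) ∣ lev M q n := by
        rw [lev_eq, hQ']
        exact Nat.mul_dvd_mul hdM (Dvd.intro _ rfl)
      have hdb' : d * (b * q ^ (n - m - s)) ∣ lev M q n := by
        rw [lev_eq, hQ']
        exact Nat.mul_dvd_mul hdM (Dvd.intro_left _ rfl)
      have hda'' : d * a * q ^ s ∣ lev M q n := by rw [mul_assoc]; exact hda'
      have hdb'' : d * b * q ^ (n - m - s) ∣ lev M q n := by rw [mul_assoc]; exact hdb'
      have e1 : degT M q m n s h (Fermat.Agent.ProgramR.BarField.jdBar (L := Qb) (lev M q m)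
          (d * a) hd') = jd (lev M q n) (d * a * q ^ s) hda'' :=
        degT_jd M q m n s h (d * a) hd' hda''
      have e2 : wT M q hq hqM m (Fermat.Agent.ProgramR.BarField.jdBar (L := Qb) (lev M q m)
          (d * a) hd') = jd (lev M q m) (d * b) hdb :=
        wT_jd M q hq hqM m d a b hdM hQ hd' hdb
      rw [e1, e2, jd_congr (lev M q n) (mul_assoc d a (q ^ s)) hda'' hda',
        wT_jd M q hq hqM n d (a * q ^ s) (b * q ^ (n - m - s)) hdM hQ' hda' hdb',
        degT_jd M q m n (n - m - s) (by omega) (d * b) hdb hdb'']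
      exact jd_congr (lev M q n) (mul_assoc d b _).symm hdb' hdb''
  exact congrArg (fun φ : FT M q m →+* FT M q n => φ f) key

/-- `w_1` at level `M` is the identity -/
theorem wT_zero (hq : q.Prime) (hqM : ¬ q ∣ M) (f : FT M q 0) : wT M q hq hqM 0 f = f := by
  have key : ((wT M q hq hqM 0 : FT M q 0 ≃ₐ[Qb] FT M q 0) : FT M q 0 →+* FT M q 0) =
      RingHom.id _ := by
    apply ringHom_ext_FBar (lev M q 0)
    · intro a
      simp only [RingHom.coe_coe, AlgEquiv.commutes, RingHom.id_apply]
    · intro d' _ hd'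
      simp only [RingHom.coe_coe, RingHom.id_apply]
      have hd1 : d' * 1 ∣ lev M q 0 := by rw [mul_one]; exact hd'
      have h := wT_jd M q hq hqM 0 d' 1 1 hd' (by rw [pow_zero, mul_one]) hd1 hd1
      rw [jd_congr (lev M q 0) (mul_one d').symm hd' hd1]
      exact h
  exact congrArg (fun φ : FT M q 0 →+* FT M q 0 => φ f) key

end Fermat.Agent.S45lib.Tower
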