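/-
S45lib / Tower / CuspRes  (helper1)  --  Project J, (KM) tower step

**Restriction of the cusp homomorphisms along the degeneracy maps.**  For `φ` with
`IsCuspHom a b ζ φ` (`ζ^(q^b) = 1`), `f ∈ FT m`:

* `IsCuspHom.degT_low`  (`m + s ≤ a`) : `φ (f(t^(q^s))) = f(t^(q^(b+s)))`;
* `cuspVal_high`        : closed form of the values at `j(t^(q^n))`, `a ≤ n ≤ a + b`;
* `vHom b ζ = twist ζ ∘ std ∘ w_{q^b}` : the pure-`V` cusp homomorphism of `FT b`;
* `IsCuspHom.degT_top`  : `φ ∘ (f(t) ↦ f(t^(q^a))) = (t ↦ t^(q^a)) ∘ vHom b ζ` on `FT b`;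
* `IsCuspHom.degT_high` (`a ≤ s`, `m + s ≤ a + b`) :
  `φ (f(t^(q^s))) = (w_m f)(ζ t^(q^(a+b-m-s)))(t^(q^a))`;
* `cuspVal_succ_left`, `IsCuspHom.degT_beta` : the `β`-step
  `ι_{a+1,b,ζ} ∘ β = (t ↦ t^q) ∘ ι_{a,b,ζ}`.
-/
import Mathlib
import Fermat.Agent.S45lib.Tower.Cusp
import Fermat.Agent.S45lib.Tower.Deg

set_option autoImplicit false
set_option linter.unusedSectionVars false
set_option linter.unusedVariables false
set_option linter.style.haveILetI false

noncomputable section

namespace Fermat.Agent.S45lib.Tower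

open ModularCurve Polynomial Module Fermat.Agent.S18lib Fermat.Agent.S18lib.V Fermat.Agent.S28lib
open Fermat.Agent.LSb.Val Fermat.Agent.S36lib.AL Fermat.Agent.S36lib.Eis
open Fermat.Agent.S37lib.ConjNorm

local notation "Qb" => AlgebraicClosure ℚ

variable {M q : ℕ} [NeZero M] [NeZero q] [hqF : Fact q.Prime]

/-- **restriction to the `F`-part**: on functions of level `≤ a` the cusp homomorphism is the
standard expansion followed by `t ↦ t^(q^b)` -/
theorem IsCuspHom.degT_low {a b : ℕ} {ζ : Qbˣ} {φ : FT M q (a + b) →+* LaurentSeries Qb}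
    (h : IsCuspHom M q a b ζ φ) (m s : ℕ) (hms : m + s ≤ a) (f : FT M q m) :
    φ (degT M q m (a + b) s (by omega) f) =
      qExpand Qb (q ^ (b + s)) (f : LaurentSeries Qb) := by
  induction b generalizing ζ with
  | zero =>
    rw [IsCuspHom] at h
    rw [h, stdT_apply, coe_degT]
    exact qExpand_congr (by rw [zero_add]) _
  | succ b ih =>
    obtain ⟨⟨ψ, hψ, hcomp⟩, -⟩ := h
    have e : degT M q m (a + (b + 1)) s (by omega) f =
        aT M q (a + b) (degT M q m (a + b) s (by omega) f) := by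
      apply Subtype.ext
      rw [coe_aT, coe_degT, coe_degT]
    have h1 := congrArg (fun g : FT M q (a + b) →+* LaurentSeries Qb =>
      g (degT M q m (a + b) s (by omega) f)) hcomp
    simp only [RingHom.comp_apply, RingHom.coe_coe] at h1
    rw [e, h1, ih hψ, qExpand_qExpand]
    exact qExpand_congr (by rw [← pow_succ']; congr 1; omega) _

section Series

variable (q)

/-- closed form of the values at the `V`-part -/
theorem cuspVal_high (a b : ℕ) {ζ : Qbˣ} (hζ : ζ ^ (q ^ b) = 1) (n : ℕ) (hn : a ≤ n)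
    (hn' : n ≤ a + b) :
    cuspVal q a b ζ n =
      qExpand Qb (q ^ a) (twist ζ (qExpand Qb (q ^ (a + b - n)) (jqModC Qb))) := by
  induction b generalizing ζ with
  | zero =>
    have h1 : ζ = 1 := by simpa using hζ
    have h2 : n = a := by omega
    subst h2
    rw [cuspVal, h1, twist_one_unit, qExpand_qExpand]
    exact qExpand_congr (by rw [add_zero, Nat.sub_self, pow_zero, mul_one]) _
  | succ b ih =>
    rw [cuspVal]
    split_ifs with hi
    · subst hi
      rw [jS]
      have : q ^ (a + (b + 1) - (a + b + 1)) = 1 := by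
        rw [show a + (b + 1) - (a + b + 1) = 0 by omega, pow_zero]
      rw [qExpand_congr this, qExpand_one_apply]
    · have hζq : (ζ ^ q) ^ (q ^ b) = 1 := by rw [← pow_mul, ← pow_succ']; exact hζ
      have e1 : q ^ (a + (b + 1) - n) = q * q ^ (a + b - n) := by
        rw [← pow_succ']; congr 1; omega
      have e2 : qExpand Qb (q ^ (a + (b + 1) - n)) (jqModC Qb) =
          qExpand Qb q (qExpand Qb (q ^ (a + b - n)) (jqModC Qb)) := by
        rw [qExpand_qExpand]
        exact qExpand_congr e1 _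
      have hR : twist ζ (qExpand Qb (q ^ (a + (b + 1) - n)) (jqModC Qb)) =
          qExpand Qb q (twist (ζ ^ q) (qExpand Qb (q ^ (a + b - n)) (jqModC Qb))) := by
        rw [e2, twist_qExpand]
      rw [hR, ih hζq (by omega), qExpand_qExpand, qExpand_qExpand]
      exact qExpand_congr (mul_comm q (q ^ a)) _

/-- the `β`-step on the values -/
theorem cuspVal_succ_left (a b : ℕ) (ζ : Qbˣ) (i : ℕ) :
    cuspVal q (a + 1) b ζ (i + 1) = qExpand Qb q (cuspVal q a b ζ i) := by
  induction b generalizing ζ with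
  | zero =>
    rw [cuspVal, cuspVal, qExpand_qExpand]
    exact qExpand_congr (pow_succ' q i) _
  | succ b ih =>
    rw [cuspVal, cuspVal]
    by_cases hi : i = a + b + 1
    · rw [if_pos hi, if_pos (by omega), S28lib.qExpand_jS]
      have hc : ∀ (e e' : ℕ) [NeZero e] [NeZero e'], e = e' → jS Qb ζ e = jS Qb ζ e' := by
        intro e e' _ _ he
        subst he
        rfl
      exact hc _ _ (pow_succ' q a)
    · rw [if_neg hi, if_neg (by omega), ih]

end Series

variable (M q)

/-- **the pure-`V` cusp homomorphism** of `FT b`: `twist ζ ∘ std ∘ w_{q^b}` -/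
def vHom (hqM : ¬ q ∣ M) (b : ℕ) (ζ : Qbˣ) : FT M q b →+* LaurentSeries Qb :=
  (twist ζ).comp ((stdT M q b).comp
    ((wT M q hqF.out hqM b : FT M q b ≃ₐ[Qb] FT M q b) : FT M q b →+* FT M q b))

theorem vHom_apply (hqM : ¬ q ∣ M) (b : ℕ) (ζ : Qbˣ) (f : FT M q b) :
    vHom M q hqM b ζ f = twist ζ ((wT M q hqF.out hqM b f : FT M q b) : LaurentSeries Qb) := rfl

/-- `vHom` along a degeneracy map -/
theorem vHom_degT (hqM : ¬ q ∣ M) (b : ℕ) (ζ : Qbˣ) (m s : ℕ) (h : m + s ≤ b) (f : FT M q m) :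
    vHom M q hqM b ζ (degT M q m b s h f) =
      twist ζ (qExpand Qb (q ^ (b - m - s))
        ((wT M q hqF.out hqM m f : FT M q m) : LaurentSeries Qb)) := by
  rw [vHom_apply, wT_degT, coe_degT]

variable {M q}

/-- **the `V`-part**: `φ ∘ (f(t) ↦ f(t^(q^a))) = (t ↦ t^(q^a)) ∘ vHom b ζ` on `FT b` -/
theorem IsCuspHom.degT_top (hqM : ¬ q ∣ M) {a b : ℕ} {ζ : Qbˣ} (hζ : ζ ^ (q ^ b) = 1)
    {φ : FT M q (a + b) →+* LaurentSeries Qb} (h : IsCuspHom M q a b ζ φ) (g : FT M q b) :
    φ (degT M q b (a + b) a (by omega) g) = qExpand Qb (q ^ a) (vHom M q hqM b ζ g) := by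
  have key : φ.comp ((degT M q b (a + b) a (by omega) : FT M q b →ₐ[Qb] FT M q (a + b)) :
      FT M q b →+* FT M q (a + b)) = (qExpand Qb (q ^ a)).comp (vHom M q hqM b ζ) := by
    apply ringHom_ext_FT M q hqM b
    · intro f
      simp only [RingHom.comp_apply, RingHom.coe_coe]
      rw [inclT_eq_degT, degT_degT, h.degT_low 0 (0 + a) (by omega), vHom_degT, wT_zero,
        twist_qExpand_of_pow_eq_one ζ _ (by simpa using hζ), qExpand_qExpand]
      exact qExpand_congr (by rw [zero_add, Nat.sub_zero, Nat.sub_zero, pow_add, mul_comm]) _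
    · intro i hi
      simp only [RingHom.comp_apply, RingHom.coe_coe]
      rw [degT_jT, h.map_jT, cuspVal_high q a b hζ (i + a) (by omega) (by omega), vHom_apply,
        wT_jT, coe_jT]
      rw [qExpand_congr (show q ^ (a + b - (i + a)) = q ^ (b - i) by congr 1; omega)]
  exact congrArg (fun ψ : FT M q b →+* LaurentSeries Qb => ψ g) key

/-- **restriction to the `V`-part** -/
theorem IsCuspHom.degT_high (hqM : ¬ q ∣ M) {a b : ℕ} {ζ : Qbˣ} (hζ : ζ ^ (q ^ b) = 1)
    {φ : FT M q (a + b) →+* LaurentSeries Qb} (h : IsCuspHom M q a b ζ φ) (m s : ℕ) (has : a ≤ s)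
    (hms : m + s ≤ a + b) (f : FT M q m) :
    φ (degT M q m (a + b) s hms f) =
      qExpand Qb (q ^ a) (twist ζ (qExpand Qb (q ^ (a + b - m - s))
        ((wT M q hqF.out hqM m f : FT M q m) : LaurentSeries Qb))) := by
  have e : degT M q m (a + b) s hms f =
      degT M q b (a + b) a (by omega) (degT M q m b (s - a) (by omega) f) := by
    rw [degT_degT]
    apply Subtype.ext
    rw [coe_degT, coe_degT]
    exact qExpand_congr (by congr 1; omega) _
  rw [e, h.degT_top hqM hζ, vHom_degT]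
  have e2 : b - m - (s - a) = a + b - m - s := by omega
  rw [e2]

/-- **the `β`-step**: `ι_{a+1,b,ζ} ∘ β = (t ↦ t^q) ∘ ι_{a,b,ζ}` -/
theorem IsCuspHom.degT_beta (hqM : ¬ q ∣ M) {a b : ℕ} {ζ : Qbˣ}
    {φ : FT M q (a + b) →+* LaurentSeries Qb} (h : IsCuspHom M q a b ζ φ)
    {φ' : FT M q (a + 1 + b) →+* LaurentSeries Qb} (h' : IsCuspHom M q (a + 1) b ζ φ')
    (g : FT M q (a + b)) :
    φ' (degT M q (a + b) (a + 1 + b) 1 (by omega) g) = qExpand Qb q (φ g) := by
  have key : φ'.comp ((degT M q (a + b) (a + 1 + b) 1 (by omega) :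
      FT M q (a + b) →ₐ[Qb] FT M q (a + 1 + b)) : FT M q (a + b) →+* FT M q (a + 1 + b)) =
      (qExpand Qb q).comp φ := by
    apply ringHom_ext_FT M q hqM (a + b)
    · intro f
      simp only [RingHom.comp_apply, RingHom.coe_coe]
      rw [inclT_eq_degT, degT_degT, h'.degT_low 0 (0 + 1) (by omega), h.degT_low 0 0 (by omega),
        qExpand_qExpand]
      exact qExpand_congr (by rw [zero_add, add_zero, pow_succ']) _
    · intro i hi
      simp only [RingHom.comp_apply, RingHom.coe_coe]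
      rw [degT_jT, h'.map_jT, h.map_jT, cuspVal_succ_left]
  exact congrArg (fun ψ : FT M q (a + b) →+* LaurentSeries Qb => ψ g) key

end Fermat.Agent.S45lib.Tower
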