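/-
S45lib / Tower / CuspGauss  (helper2)  --  Project J, (KM) tower: the cusp homomorphisms have Gauss
ratios on the inertia-fixed field.

For `φ : FT (a + b) →+* ℚ̄((t))` with `IsCuspHom M q a b ζ φ` (helper1's `Tower/Cusp`), `ζ` primitive
of order `q^b`, and `A ∣ q` a valuation ring of `ℚ̄`:

* `cuspFix H n φ : fixF (lev M q n) H →+* ℚ̄((t))`, the restriction to the fixed field;
  `cuspFix_algebraMap` (constants go to constants);
* `IsCuspHom.map_jd_low/high` : the values at ALL the generators `j(t^(d q^i))`, `d ∣ M`;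
* `IsCuspHom.isInt_map_jd`, `IsCuspHom.coeff_map_jd_mem` : they are `A`-integral, with coefficients
  in every subfield containing `ζ`;
* **`hasGaussRatio_cuspFix`** : `∀ x ≠ 0, HasGaussRatio A (cuspFix (HI A) (a + b) φ) x`, so that
  `Gauss.gaussVS` / `Gauss.gaussPlace` exist for every component `(a, b)` of the tower.
-/
import Mathlib
import Fermat.Agent.S45lib.Tower.CuspRes
import Fermat.Agent.S45lib.Gauss.FixGen

set_option autoImplicit false
set_option linter.unusedSectionVars false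
set_option linter.unusedVariables false
set_option linter.style.haveILetI false

noncomputable section

namespace Fermat.Agent.S45lib.Tower

open ModularCurve Polynomial Module Fermat.Agent.S18lib Fermat.Agent.S18lib.V Fermat.Agent.S28lib
open Fermat.Agent.LSb.Val Fermat.Agent.S36lib.AL Fermat.Agent.S36lib.Eis
open Fermat.Agent.S36lib.Desc2 Fermat.Agent.S36lib.Desc Fermat.Agent.S45lib.Gauss

local notation "Qb" => AlgebraicClosure ℚ
local notation "GQ" => (AlgebraicClosure ℚ ≃ₐ[ℚ] AlgebraicClosure ℚ)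

variable {M q : ℕ} [NeZero M] [NeZero q] [hqF : Fact q.Prime]

/-- the divisors of `M q^n` -/
theorem exists_factor_lev {n d : ℕ} (hd : d ∣ lev M q n) :
    ∃ d' i : ℕ, d' ∣ M ∧ i ≤ n ∧ d = d' * q ^ i := by
  rw [lev_eq] at hd
  obtain ⟨d₁, d₂, h1, h2, rfl⟩ := exists_dvd_and_dvd_of_dvd_mul hd
  obtain ⟨i, hi, rfl⟩ := (Nat.dvd_prime_pow hqF.out).1 h2
  exact ⟨d₁, i, h1, hi, rfl⟩

/-- `j(t^(d q^i))` through the degeneracy map from level `M` -/
theorem jd_eq_degT {n : ℕ} (d' i : ℕ) [NeZero d'] (hd' : d' ∣ lev M q 0) (hi : 0 + i ≤ n)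
    (d : ℕ) [NeZero d] (hd : d ∣ lev M q n) (e : d = d' * q ^ i) :
    jd (lev M q n) d hd = degT M q 0 n i hi (jd (lev M q 0) d' hd') := by
  apply Subtype.ext
  rw [coe_degT, coe_jd_eq, coe_jd_eq, qExpand_qExpand]
  exact qExpand_congr (by rw [e, mul_comm]) _

/-- the value of a cusp homomorphism at `j(t^(d q^i))`, `i ≤ a` -/
theorem IsCuspHom.map_jd_low {a b : ℕ} {ζ : Qbˣ} {φ : FT M q (a + b) →+* LaurentSeries Qb}
    (h : IsCuspHom M q a b ζ φ) (d' i : ℕ) [NeZero d'] (hd' : d' ∣ lev M q 0) (hi : i ≤ a)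
    (d : ℕ) [NeZero d] (hd : d ∣ lev M q (a + b)) (e : d = d' * q ^ i) :
    φ (jd (lev M q (a + b)) d hd) =
      qExpand Qb (q ^ (b + i)) (qExpand Qb d' (jqModC Qb)) := by
  rw [jd_eq_degT d' i hd' (by omega) d hd e, h.degT_low 0 i (by omega), coe_jd_eq]

/-- the value of a cusp homomorphism at `j(t^(d q^i))`, `a ≤ i` -/
theorem IsCuspHom.map_jd_high (hqM : ¬ q ∣ M) {a b : ℕ} {ζ : Qbˣ} (hζ : ζ ^ (q ^ b) = 1)
    {φ : FT M q (a + b) →+* LaurentSeries Qb}
    (h : IsCuspHom M q a b ζ φ) (d' i : ℕ) [NeZero d'] (hd' : d' ∣ lev M q 0) (hai : a ≤ i)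
    (hi : i ≤ a + b) (d : ℕ) [NeZero d] (hd : d ∣ lev M q (a + b)) (e : d = d' * q ^ i) :
    φ (jd (lev M q (a + b)) d hd) =
      qExpand Qb (q ^ a) (twist ζ (qExpand Qb (q ^ (a + b - 0 - i))
        (qExpand Qb d' (jqModC Qb)))) := by
  rw [jd_eq_degT d' i hd' (by omega) d hd e, h.degT_high hqM hζ 0 i hai (by omega), wT_zero,
    coe_jd_eq]

/-- the values at the generators are integral -/
theorem IsCuspHom.isInt_map_jd (hqM : ¬ q ∣ M) (A : ValuationSubring Qb) {a b : ℕ} {ζ : Qbˣ}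
    (hζ : ζ ^ (q ^ b) = 1) {φ : FT M q (a + b) →+* LaurentSeries Qb}
    (h : IsCuspHom M q a b ζ φ) (d : ℕ) [NeZero d] (hd : d ∣ lev M q (a + b)) :
    IsInt A (φ (jd (lev M q (a + b)) d hd)) := by
  obtain ⟨d', i, hd', hi, e⟩ := exists_factor_lev hd
  haveI : NeZero d' := ⟨by rintro rfl; exact NeZero.ne d (by rw [e, zero_mul])⟩
  have hζv : A.valuation (ζ : Qb) = 1 :=
    valuation_unit_root_eq_one A (pow_ne_zero b hqF.out.ne_zero) hζ
  rcases le_total i a with hia | hai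
  · rw [h.map_jd_low d' i hd' hia d hd e]
    exact isInt_qExpand A _ (isInt_qExpand A _ (isInt_jqModC A))
  · rw [h.map_jd_high hqM hζ d' i hd' hai hi d hd e]
    exact isInt_qExpand A _ (isInt_twist A ζ hζv
      (isInt_qExpand A _ (isInt_qExpand A _ (isInt_jqModC A))))

/-- the values at the generators have coefficients in every subfield containing `ζ` -/
theorem IsCuspHom.coeff_map_jd_mem (hqM : ¬ q ∣ M) (L₀ : Subfield Qb) {a b : ℕ} {ζ : Qbˣ}
    (hζ : ζ ^ (q ^ b) = 1) (hζL : (ζ : Qb) ∈ L₀) {φ : FT M q (a + b) →+* LaurentSeries Qb}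
    (h : IsCuspHom M q a b ζ φ) (d : ℕ) [NeZero d] (hd : d ∣ lev M q (a + b)) (n : ℤ) :
    (φ (jd (lev M q (a + b)) d hd)).coeff n ∈ L₀ := by
  obtain ⟨d', i, hd', hi, e⟩ := exists_factor_lev hd
  haveI : NeZero d' := ⟨by rintro rfl; exact NeZero.ne d (by rw [e, zero_mul])⟩
  rcases le_total i a with hia | hai
  · rw [h.map_jd_low d' i hd' hia d hd e]
    exact coeff_mem_qExpand L₀ _ (coeff_mem_qExpand L₀ _ (coeff_jqModC_mem L₀)) n
  · rw [h.map_jd_high hqM hζ d' i hd' hai hi d hd e]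
    exact coeff_mem_qExpand L₀ _ (coeff_mem_twist L₀ ζ hζL
      (coeff_mem_qExpand L₀ _ (coeff_mem_qExpand L₀ _ (coeff_jqModC_mem L₀)))) n

/-! ### the restriction to the fixed field -/

/-- the restriction of a homomorphism out of `FT n` to the `H`-fixed field -/
def cuspFix (H : Subgroup GQ) (n : ℕ) (φ : FT M q n →+* LaurentSeries Qb) :
    fixF (lev M q n) H →+* LaurentSeries Qb :=
  φ.comp (fixF (lev M q n) H).subtype

@[simp] theorem cuspFix_apply (H : Subgroup GQ) (n : ℕ) (φ : FT M q n →+* LaurentSeries Qb)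
    (x : fixF (lev M q n) H) : cuspFix H n φ x = φ (x : FT M q n) := rfl

theorem cuspFix_algebraMap (H : Subgroup GQ) {a b : ℕ} {ζ : Qbˣ}
    {φ : FT M q (a + b) →+* LaurentSeries Qb} (h : IsCuspHom M q a b ζ φ) (c : fixK H) :
    cuspFix H (a + b) φ (algebraMap (fixK H) (fixF (lev M q (a + b)) H) c) =
      HahnSeries.C (c : Qb) := by
  rw [cuspFix_apply, coe_algebraMap_fixF, h.map_algebraMap]
  rfl

/-- **the cusp homomorphisms have Gauss ratios on the inertia-fixed field** -/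
theorem hasGaussRatio_cuspFix (hqM : ¬ q ∣ M) (A : ValuationSubring Qb) (hA : A.LiesOverPrime q)
    {a b : ℕ} {ζ : Qbˣ} (hζ : IsPrimitiveRoot ζ (q ^ b))
    {φ : FT M q (a + b) →+* LaurentSeries Qb} (h : IsCuspHom M q a b ζ φ) :
    ∀ x : fixF (lev M q (a + b)) (A.inertiaSubgroupIn ℚ), x ≠ 0 →
      HasGaussRatio A (cuspFix (A.inertiaSubgroupIn ℚ) (a + b) φ) x := by
  have hζ1 : ζ ^ (q ^ b) = 1 := hζ.pow_eq_one
  rcases Nat.eq_zero_or_pos b with hb | hb
  · -- the unramified component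
    have hζe : (ζ : Qb) = 1 := by
      have h1 : ζ = 1 := by
        have := hζ.pow_eq_one
        rw [hb, pow_zero, pow_one] at this
        exact this
      rw [h1, Units.val_one]
    refine hasGaussRatio_fixF_unram A (lev M q (a + b)) hqF.out hA _
      (fun c => cuspFix_algebraMap _ h c) ?_
    intro d _ hd
    refine ⟨h.isInt_map_jd hqM A hζ1 d hd, fun n => ?_⟩
    exact h.coeff_map_jd_mem hqM _ hζ1 (by rw [hζe]; exact one_mem _) d hd n
  · -- a ramified component
    have hζ' : IsPrimitiveRoot (ζ : Qb) (q ^ b) := IsPrimitiveRoot.coe_units_iff.2 hζ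
    refine hasGaussRatio_fixF_root A (lev M q (a + b)) hqF.out hA hb hζ' _
      (fun c => cuspFix_algebraMap _ h c) ?_
    intro d _ hd
    refine ⟨h.isInt_map_jd hqM A hζ1 d hd, fun n => ?_⟩
    exact h.coeff_map_jd_mem hqM _ hζ1
      (IntermediateField.mem_adjoin_simple_self _ (ζ : Qb)) d hd n

end Fermat.Agent.S45lib.Tower
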