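/-
S45lib / Tower / CuspUnif  (helper2)  --  Project J, (KM) tower: the uniformizer estimate on the
component `(a, b)`.

For `φ` with `IsCuspHom M q a b ζ φ` (`ζ` primitive of order `q^b`) and `1 ≤ r ≤ min a b`:

* `ϖ = unifT r := j(t^(q^(a+r))) − j(t^(q^(a−r)))` has the raw value
  `qExpand (q^(a+b−r)) (twist ζ_r jq − jq)`, `ζ_r = ζ^(q^(b−r))` primitive of order `q^r`
  (`IsCuspHom.map_unifT`);
* this is `C (1 − ζ_r)` times a primitive integral series (`exists_prim_qExpand_twist_sub`);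
* hence (`cuspFix_unif`) for the Gauss valuation `v` of `cuspFix (HI A) (a+b) φ`:
  `ϖ ≠ 0`, `v ϖ < 1`, and `v x = v ϖ ^ φ(q^r)` for every `x` mapped to the constant `q`;
* `cuspFix_unif_zero` : the case `r = 0` (`ϖ` = any element mapped to the constant `q`).
-/
import Mathlib
import Fermat.Agent.S45lib.Tower.CuspGauss
import Fermat.Agent.S45lib.Tower.NormFix
import Fermat.Agent.S45lib.Gauss.Attain

set_option autoImplicit false
set_option linter.unusedSectionVars false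
set_option linter.unusedVariables false
set_option linter.style.haveILetI false

noncomputable section

namespace Fermat.Agent.S45lib.Tower

open ModularCurve Polynomial Module Fermat.Agent.S18lib Fermat.Agent.S18lib.V Fermat.Agent.S28lib
open Fermat.Agent.LSb.Val Fermat.Agent.S36lib.AL Fermat.Agent.S36lib.Eis
open Fermat.Agent.S36lib.Desc2 Fermat.Agent.S36lib.Desc Fermat.Agent.S45lib.Gauss

local notation "Qb" => AlgebraicClosure ℚ
local notation "GQ" => (AlgebraicClosure ℚ ≃ₐ[ℚ] AlgebraicClosure ℚ)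

/-! ### the series `j(ζ t) − j(t)` -/

section Series

variable {L : Type*} [Field L] (A : ValuationSubring L)

/-- an integral power of a root of unity is a natural power -/
theorem exists_nat_zpow_eq {N : ℕ} (hN : N ≠ 0) {ζ : Lˣ} (hζ : ζ ^ N = 1) (n : ℤ) :
    ∃ i : ℕ, ζ ^ n = ζ ^ i := by
  refine ⟨(n % (N : ℤ)).toNat, ?_⟩
  have h1 : (0 : ℤ) ≤ n % (N : ℤ) := Int.emod_nonneg _ (by exact_mod_cast hN)
  conv_lhs => rw [← Int.emod_add_mul_ediv n (N : ℤ)]
  rw [zpow_add, zpow_mul, zpow_natCast ζ N, hζ, one_zpow, mul_one, ← zpow_natCast,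
    Int.toNat_of_nonneg h1]

theorem coeff_twist_sub (ζ : Lˣ) (n : ℤ) :
    (twist ζ (jqModC L) - jqModC L).coeff n = (((ζ ^ n : Lˣ) : L) - 1) * (jqModC L).coeff n := by
  rw [HahnSeries.coeff_sub, twist_coeff]
  ring

theorem valuation_coeff_jqModC_le (n : ℤ) : A.valuation ((jqModC L).coeff n) ≤ 1 :=
  (A.valuation_le_one_iff _).2 (isInt_jqModC A n)

/-- the coefficients of `j(ζ t) − j(t)` are bounded by `v(1 − ζ)` -/
theorem valuation_coeff_twist_sub_le {N : ℕ} (hN : N ≠ 0) {ζ : Lˣ} (hζ : ζ ^ N = 1) (n : ℤ) :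
    A.valuation ((twist ζ (jqModC L) - jqModC L).coeff n) ≤ A.valuation (1 - (ζ : L)) := by
  obtain ⟨i, hi⟩ := exists_nat_zpow_eq hN hζ n
  have hζ' : (ζ : L) ^ N = 1 := by rw [← Units.val_pow_eq_pow_val, hζ, Units.val_one]
  rw [coeff_twist_sub, hi, Units.val_pow_eq_pow_val, map_mul]
  have h1 : A.valuation ((ζ : L) ^ i - 1) ≤ A.valuation (1 - (ζ : L)) := by
    rw [← neg_sub, Valuation.map_neg]
    exact valuation_one_sub_pow_le A hN hζ' i
  calc A.valuation ((ζ : L) ^ i - 1) * A.valuation ((jqModC L).coeff n)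
      ≤ A.valuation (1 - (ζ : L)) * 1 :=
        mul_le_mul' h1 (valuation_coeff_jqModC_le A n)
    _ = A.valuation (1 - (ζ : L)) := mul_one _

/-- the bound is attained at `t⁻¹` -/
theorem valuation_coeff_twist_sub_neg_one {N : ℕ} (hN : N ≠ 0) {ζ : Lˣ} (hζ : ζ ^ N = 1) :
    A.valuation ((twist ζ (jqModC L) - jqModC L).coeff (-1)) = A.valuation (1 - (ζ : L)) := by
  have hζ' : (ζ : L) ^ N = 1 := by rw [← Units.val_pow_eq_pow_val, hζ, Units.val_one]
  have hv : A.valuation (ζ : L) = 1 := valuation_root_eq_one A hN hζ'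
  have hζ0 : (ζ : L) ≠ 0 := ζ.ne_zero
  rw [coeff_twist_sub, coeff_jqModC_neg_one, mul_one, zpow_neg_one, Units.val_inv_eq_inv_val]
  have e : (ζ : L)⁻¹ - 1 = (ζ : L)⁻¹ * (1 - (ζ : L)) := by
    rw [mul_sub, mul_one, inv_mul_cancel₀ hζ0]
  rw [e, map_mul, map_inv₀, hv, inv_one, one_mul]

/-- **`j(ζ t^E) − j(t^E)` is `C (1 − ζ)` times a primitive series** -/
theorem exists_prim_qExpand_twist_sub {N : ℕ} (hN : N ≠ 0) {ζ : Lˣ} (hζ : ζ ^ N = 1)
    (hne : 1 - (ζ : L) ≠ 0) (E : ℕ) [NeZero E] :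
    ∃ g : LaurentSeries A, red A g ≠ 0 ∧
      qExpand L E (twist ζ (jqModC L) - jqModC L) = HahnSeries.C (1 - (ζ : L)) * incl A g := by
  refine exists_prim_of_attained A hne (n₀ := (E : ℤ) * (-1)) ?_ ?_
  · intro n
    by_cases h : (E : ℤ) ∣ n
    · obtain ⟨k, rfl⟩ := h
      rw [qExpand_coeff_mul]
      exact valuation_coeff_twist_sub_le A hN hζ k
    · rw [qExpand_coeff_of_not_dvd (R := L) (N := E) _ h, map_zero]
      exact zero_le
  · rw [qExpand_coeff_mul]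
    exact valuation_coeff_twist_sub_neg_one A hN hζ

end Series

/-! ### the uniformizer candidate -/

variable {M q : ℕ} [NeZero M] [NeZero q] [hqF : Fact q.Prime]

/-- `ϖ_r = j(t^(q^(a+r))) − j(t^(q^(a−r)))` in `FT (a + b)` -/
def unifT (M q : ℕ) [NeZero M] [NeZero q] (a b r : ℕ) (hrb : r ≤ b) : FT M q (a + b) :=
  jT M q (a + b) (a + r) (by omega) - jT M q (a + b) (a - r) (by omega)

/-- the same element in the fixed field -/
def unifFix (M q : ℕ) [NeZero M] [NeZero q] (H : Subgroup GQ) (a b r : ℕ) (hrb : r ≤ b) :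
    fixF (lev M q (a + b)) H :=
  jTFix M q H (a + b) (a + r) (by omega) - jTFix M q H (a + b) (a - r) (by omega)

@[simp] theorem coe_unifFix (H : Subgroup GQ) (a b r : ℕ) (hrb : r ≤ b) :
    ((unifFix M q H a b r hrb : fixF (lev M q (a + b)) H) : FT M q (a + b)) =
      unifT M q a b r hrb := rfl

/-- the raw value of `ϖ_r` -/
theorem IsCuspHom.map_unifT {a b : ℕ} {ζ : Qbˣ} (hζ : ζ ^ (q ^ b) = 1)
    {φ : FT M q (a + b) →+* LaurentSeries Qb} (h : IsCuspHom M q a b ζ φ) (r : ℕ) (hra : r ≤ a)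
    (hrb : r ≤ b) :
    φ (unifT M q a b r hrb) =
      qExpand Qb (q ^ (a + b - r)) (twist (ζ ^ (q ^ (b - r))) (jqModC Qb) - jqModC Qb) := by
  have e1 : φ (jT M q (a + b) (a + r) (by omega)) =
      qExpand Qb (q ^ (a + b - r)) (twist (ζ ^ (q ^ (b - r))) (jqModC Qb)) := by
    rw [h.map_jT, cuspVal_high q a b hζ (a + r) (by omega) (by omega), twist_qExpand,
      qExpand_qExpand]
    have e : a + b - (a + r) = b - r := by omega
    rw [e]
    exact qExpand_congr (by rw [← pow_add]; congr 1; omega) _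
  have e2 : φ (jT M q (a + b) (a - r) (by omega)) =
      qExpand Qb (q ^ (a + b - r)) (jqModC Qb) := by
    have e3 : jT M q (a + b) (a - r) (by omega) =
        degT M q 0 (a + b) (a - r) (by omega) (jT M q 0 0 le_rfl) := by
      rw [degT_jT]
      apply Subtype.ext
      rw [coe_jT, coe_jT]
      exact qExpand_congr (by rw [zero_add]) _
    rw [e3, h.degT_low 0 (a - r) (by omega), coe_jT, qExpand_qExpand]
    exact qExpand_congr (by rw [pow_zero, mul_one]; congr 1; omega) _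
  rw [unifT, map_sub, e1, e2, map_sub]

/-- **the uniformizer estimate** on the component `(a, b)`, `1 ≤ r ≤ min a b` -/
theorem cuspFix_unif (hqM : ¬ q ∣ M) (A : ValuationSubring Qb) (hA : A.LiesOverPrime q)
    {a b : ℕ} {ζ : Qbˣ} (hζ : IsPrimitiveRoot ζ (q ^ b))
    {φ : FT M q (a + b) →+* LaurentSeries Qb} (h : IsCuspHom M q a b ζ φ)
    (hι : ∀ x : fixF (lev M q (a + b)) (A.inertiaSubgroupIn ℚ), x ≠ 0 →
      HasGaussRatio A (cuspFix (A.inertiaSubgroupIn ℚ) (a + b) φ) x)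
    (r : ℕ) (hr : 0 < r) (hra : r ≤ a) (hrb : r ≤ b) :
    unifFix M q (A.inertiaSubgroupIn ℚ) a b r hrb ≠ 0 ∧
    (gaussVS A _ hι).valuation (unifFix M q (A.inertiaSubgroupIn ℚ) a b r hrb) < 1 ∧
    ∀ x : fixF (lev M q (a + b)) (A.inertiaSubgroupIn ℚ),
      cuspFix (A.inertiaSubgroupIn ℚ) (a + b) φ x = HahnSeries.C ((q : ℕ) : Qb) →
      (gaussVS A _ hι).valuation x =
        (gaussVS A _ hι).valuation (unifFix M q (A.inertiaSubgroupIn ℚ) a b r hrb) ^
          Nat.totient (q ^ r) := by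
  have hq := hqF.out
  have hζ1 : ζ ^ (q ^ b) = 1 := hζ.pow_eq_one
  -- `ζ_r`
  set ζr : Qbˣ := ζ ^ (q ^ (b - r)) with hζr
  have hζrp : IsPrimitiveRoot ζr (q ^ r) := by
    have hb : q ^ b = q ^ (b - r) * q ^ r := by rw [← pow_add]; congr 1; omega
    exact hζ.pow (pow_pos hq.pos b) hb
  have hζrp' : IsPrimitiveRoot (ζr : Qb) (q ^ r) := IsPrimitiveRoot.coe_units_iff.2 hζrp
  have hζr1 : ζr ^ (q ^ r) = 1 := hζrp.pow_eq_one
  have hN : q ^ r ≠ 0 := pow_ne_zero r hq.ne_zero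
  have hc0 : 1 - (ζr : Qb) ≠ 0 := one_sub_ne_zero hq hr hζrp'
  have hclt : A.valuation (1 - (ζr : Qb)) < 1 :=
    valuation_one_sub_lt_one A hq hr hζrp' (valuation_q_lt_one hA)
  have hctot : A.valuation (1 - (ζr : Qb)) ^ Nat.totient (q ^ r) = A.valuation ((q : ℕ) : Qb) :=
    valuation_one_sub_pow_totient A hq hr hζrp'
  haveI : NeZero (q ^ (a + b - r)) := ⟨pow_ne_zero _ hq.ne_zero⟩
  obtain ⟨g, hg, eg⟩ := exists_prim_qExpand_twist_sub A hN hζr1 hc0 (q ^ (a + b - r))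
  -- the presentation of `ϖ`
  have eϖ : cuspFix (A.inertiaSubgroupIn ℚ) (a + b) φ
      (unifFix M q (A.inertiaSubgroupIn ℚ) a b r hrb) * incl A 1 =
        HahnSeries.C (1 - (ζr : Qb)) * incl A g := by
    rw [cuspFix_apply, coe_unifFix, h.map_unifT hζ1 r hra hrb, map_one, mul_one, eg]
  have hϖ0 : unifFix M q (A.inertiaSubgroupIn ℚ) a b r hrb ≠ 0 :=
    HasGaussRatio.ne_zero A _ ⟨_, hc0, g, 1, hg, red_one_ne_zero A, eϖ⟩
  refine ⟨hϖ0, ?_, ?_⟩
  · exact (gaussVS_val_lt_one_iff A _ hι hg (red_one_ne_zero A) eϖ).2 hclt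
  · intro x hx
    have hq0 : ((q : ℕ) : Qb) ≠ 0 := Nat.cast_ne_zero.2 hq.ne_zero
    exact (gaussVS_val_eq_pow_iff A _ hι hg (red_one_ne_zero A) (red_one_ne_zero A)
      (red_one_ne_zero A) hc0 hq0 eϖ (ratio_of_C A _ hx) _).2 hctot.symm

/-- the case `r = 0`: an element mapped to the constant `q` has Gauss valuation `< 1` -/
theorem cuspFix_unif_zero (A : ValuationSubring Qb) (hA : A.LiesOverPrime q)
    {n : ℕ} {φ : FT M q n →+* LaurentSeries Qb}
    (hι : ∀ x : fixF (lev M q n) (A.inertiaSubgroupIn ℚ), x ≠ 0 →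
      HasGaussRatio A (cuspFix (A.inertiaSubgroupIn ℚ) n φ) x)
    (x : fixF (lev M q n) (A.inertiaSubgroupIn ℚ))
    (hx : cuspFix (A.inertiaSubgroupIn ℚ) n φ x = HahnSeries.C ((q : ℕ) : Qb)) :
    x ≠ 0 ∧ (gaussVS A _ hι).valuation x < 1 := by
  have hq := hqF.out
  have hq0 : ((q : ℕ) : Qb) ≠ 0 := Nat.cast_ne_zero.2 hq.ne_zero
  refine ⟨?_, (gaussVS_valuation_lt_one_of_C_iff A _ hι hx).2 (valuation_q_lt_one hA)⟩
  rintro rfl
  rw [map_zero] at hx
  exact hq0 (HahnSeries.C_injective (hx.symm.trans (map_zero _).symm))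

end Fermat.Agent.S45lib.Tower
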