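/-
S45lib / Tower / StdCompare  (helper2)  --  Project J, (KM) tower: main's `K`-rational Gauss data of
levels `M` and `M q` are the Gauss places of the standard expansion (and of its `w_q`-transport).

* `stdFix N H : fixF N H →+* ℚ̄((t))`, the standard expansion on the fixed field;
  `hasModRatio_stdFix` : every nonzero fixed function is `q^m · a / b` with `a, b` FIXED functions
  with primitive integral expansions (any level `N`); `hasGaussRatio_stdFix`;
* (I0) `gaussMK_O_eq`, `gaussMK_redF_eq` : `gaussMK M A` = Gauss place of `stdFix M`;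
* (I1) `gaussOneK_O_eq`, `gaussOneK_redF_eq` : `gaussOneK M q A` = Gauss place of `stdFix (M q)`;
* (I2) `gaussTwoK_O_eq`, `gaussTwoK_redF_eq` : `gaussTwoK M q A` = Gauss place of
  `stdFix (M q) ∘ w_q`.
-/
import Mathlib
import Fermat.Agent.S36lib.Desc2.Places
import Fermat.Agent.S36lib.Norm.Bridge
import Fermat.Agent.S36lib.Mid.OverM
import Fermat.Agent.S45lib.Gauss.Compare
import Fermat.Agent.S45lib.Gauss.Subst

set_option autoImplicit false
set_option linter.unusedSectionVars false
set_option linter.unusedVariables false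
set_option linter.style.haveILetI false

noncomputable section

namespace Fermat.Agent.S45lib.Tower

open ModularCurve Fermat.Agent.S18lib Fermat.Agent.S18lib.V Fermat.Agent.S13lib
open Fermat.Agent.S29lib.GH Fermat.Agent.S36lib.Desc Fermat.Agent.S36lib.Desc2 IsLocalRing
open Fermat.Agent.LSb.Val Fermat.Agent.S36lib.Norm Fermat.Agent.S45lib.Gauss

local notation "Qb" => AlgebraicClosure ℚ
local notation "GQ" => (AlgebraicClosure ℚ ≃ₐ[ℚ] AlgebraicClosure ℚ)

/-! ### the standard expansion on the fixed field -/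

section Std

variable (N : ℕ) [NeZero N] (H : Subgroup GQ)

/-- the standard expansion of the fixed field -/
def stdFix : fixF N H →+* LaurentSeries Qb :=
  (modularFunctionFieldBar N).subtype.comp (fixF N H).subtype

@[simp] theorem stdFix_apply (x : fixF N H) :
    stdFix N H x = (((x : fixF N H) : FBar N) : LaurentSeries Qb) := rfl

variable {q : ℕ} (A : ValuationSubring Qb)

theorem qPow_mem_fixF (m : ℤ) : qPow N q m ∈ fixF N H := by
  have h := algebraMap_mem_fixF (N := N) (H := H) (((q : ℕ) : fixK H) ^ m)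
  rwa [map_zpow₀, map_natCast] at h

/-- **modular Gauss ratios for the standard expansion of the fixed field** -/
theorem hasModRatio_stdFix (hq : q.Prime) (hA : A.LiesOverPrime q)
    (hH : A.inertiaSubgroupIn ℚ ≤ H) (x : fixF N H) (hx : x ≠ 0) :
    HasModRatio A (stdFix N H) x := by
  have hx0 : (x : FBar N) ≠ 0 := fun h => hx (Subtype.ext h)
  obtain ⟨P, hP, Q, hQ, hQ0, hfQ, hQfix, hPfix⟩ := exists_fixed_ratio N H (mem_fixF.1 x.2)
  have hP0 : P ≠ 0 := by
    rw [← hfQ]
    exact mul_ne_zero hx0 hQ0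
  obtain ⟨mP, yP, hyP, hyPK, eP⟩ := exists_qPow_mul_eq N H hq hA hH hP hP0 hPfix
  obtain ⟨mQ, yQ, hyQ, hyQK, eQ⟩ := exists_qPow_mul_eq N H hq hA hH hQ hQ0 hQfix
  have hPm : P ∈ fixF N H := mem_fixF.2 hPfix
  have hQm : Q ∈ fixF N H := mem_fixF.2 hQfix
  have haM : qPow N q mP * P ∈ fixF N H := mul_mem (qPow_mem_fixF N H mP) hPm
  have hbM : qPow N q mQ * Q ∈ fixF N H := mul_mem (qPow_mem_fixF N H mQ) hQm
  have hq0 : ((q : ℕ) : Qb) ≠ 0 := Nat.cast_ne_zero.2 hq.ne_zero
  refine ⟨(q : Qb) ^ (mQ - mP), ⟨_, haM⟩, ⟨_, hbM⟩, yP, yQ, zpow_ne_zero _ hq0, hyPK, hyQK, ?_, ?_,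
    ?_⟩
  · show ((qPow N q mP * P : FBar N) : LaurentSeries Qb) = incl A yP
    rw [← eP]
    rfl
  · show ((qPow N q mQ * Q : FBar N) : LaurentSeries Qb) = incl A yQ
    rw [← eQ]
    rfl
  · show ((x : FBar N) : LaurentSeries Qb) * ((qPow N q mQ * Q : FBar N) : LaurentSeries Qb) =
      HahnSeries.C ((q : Qb) ^ (mQ - mP)) * ((qPow N q mP * P : FBar N) : LaurentSeries Qb)
    rw [coe_qPow_mul, coe_qPow_mul, ← mul_assoc (HahnSeries.C _), ← map_mul, ← zpow_add₀ hq0,
      sub_add_cancel]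
    have h1 : ((x : FBar N) : LaurentSeries Qb) * (Q : LaurentSeries Qb) =
        (P : LaurentSeries Qb) := congrArg Subtype.val hfQ
    rw [← h1]
    ring

theorem hasGaussRatio_stdFix (hq : q.Prime) (hA : A.LiesOverPrime q)
    (hH : A.inertiaSubgroupIn ℚ ≤ H) (x : fixF N H) (hx : x ≠ 0) :
    HasGaussRatio A (stdFix N H) x :=
  (hasModRatio_stdFix N H A hq hA hH x hx).hasGaussRatio

end Std

/-! ### the embedding of the residue function field -/

section Theta

variable (A : ValuationSubring Qb) (M : ℕ)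

local notation "kA" => IsLocalRing.ResidueField A

/-- `FRes A M ↪ k((t))` -/
def thetaRes : FRes A M →+* LaurentSeries kA :=
  (modularFunctionFieldFullC kA M).subtype

@[simp] theorem thetaRes_apply (z : FRes A M) : thetaRes A M z = (z : LaurentSeries kA) := rfl

end Theta

/-! ### (I0) level `M` -/

section LevelM

variable (M : ℕ) [NeZero M] (A : ValuationSubring Qb) {q : ℕ} [hq : Fact q.Prime]
  (hqM : ¬ q ∣ M) (hA : A.LiesOverPrime q)

local notation "kA" => IsLocalRing.ResidueField A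

/-- integral fixed functions of level `M` lie in `gaussMK.O` and reduce coefficientwise -/
theorem hint_gaussMK (a : fixF M (A.inertiaSubgroupIn ℚ)) (g : LaurentSeries A)
    (e : stdFix M (A.inertiaSubgroupIn ℚ) a = incl A g) :
    a ∈ (ofGauss (gaussMK M A hqM hA)).O ∧
      thetaRes A M ((ofGauss (gaussMK M A hqM hA)).redF a) = red A g := by
  have hy : toL A g ∈ modularFunctionFieldBar M := by
    have : toL A g = ((a : FBar M) : LaurentSeries Qb) := e.symm
    rw [this]
    exact (a : FBar M).2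
  have ea : (a : FBar M) = ⟨toL A g, hy⟩ := Subtype.ext e
  constructor
  · show (a : FBar M) ∈ (gaussDatum M A hqM hA).O
    rw [ea]
    exact gaussDatum_mem_of_integral M A hqM hA g hy
  · rw [ofGauss_redF, gaussMK_redF, ea, thetaRes_apply,
      coe_gaussDatum_redF_of_integral M A hqM hA g hy]
    rfl

variable (hι : ∀ x : fixF M (A.inertiaSubgroupIn ℚ), x ≠ 0 →
  HasGaussRatio A (stdFix M (A.inertiaSubgroupIn ℚ)) x)

/-- **(I0)** the valuation ring of `gaussMK` is the Gauss valuation ring of the standard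
expansion -/
theorem gaussMK_O_eq :
    (ofGauss (gaussMK M A hqM hA)).O = gaussVS A (stdFix M (A.inertiaSubgroupIn ℚ)) hι :=
  place_O_eq_gaussVS A _ (ofGauss (gaussMK M A hqM hA)) (thetaRes A M)
    (hint_gaussMK M A hqM hA) hι
    (hasModRatio_stdFix M (A.inertiaSubgroupIn ℚ) A hq.out hA le_rfl)

/-- **(I0)** the reduction of `gaussMK` is the Gauss reduction -/
theorem gaussMK_redF_eq (x : fixF M (A.inertiaSubgroupIn ℚ)) :
    (((ofGauss (gaussMK M A hqM hA)).redF x : FRes A M) : LaurentSeries kA) =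
      (((gaussPlace A (stdFix M (A.inertiaSubgroupIn ℚ)) hι).redF x :
        gaussResidue A (stdFix M (A.inertiaSubgroupIn ℚ)) hι) : LaurentSeries kA) :=
  place_redF_eq_gauss A _ (ofGauss (gaussMK M A hqM hA)) (thetaRes A M)
    (hint_gaussMK M A hqM hA) hι
    (hasModRatio_stdFix M (A.inertiaSubgroupIn ℚ) A hq.out hA le_rfl) x

end LevelM

/-! ### (I1), (I2) level `M q` -/

section LevelMq

variable (M q : ℕ) [NeZero M] [NeZero q] [hq : Fact q.Prime] (A : ValuationSubring Qb)
  (hqM : ¬ q ∣ M) (hA : A.LiesOverPrime q)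

local notation "kA" => IsLocalRing.ResidueField A

/-- integral fixed functions of level `M q` lie in `gaussOneK.O` and reduce coefficientwise -/
theorem hint_gaussOneK (a : fixF (M * q) (A.inertiaSubgroupIn ℚ)) (g : LaurentSeries A)
    (e : stdFix (M * q) (A.inertiaSubgroupIn ℚ) a = incl A g) :
    a ∈ (ofGauss (gaussOneK M q A hqM hA)).O ∧
      thetaRes A M ((ofGauss (gaussOneK M q A hqM hA)).redF a) = red A g := by
  have hy : toL A g ∈ modularFunctionFieldBar (M * q) := by
    have : toL A g = ((a : FBar (M * q)) : LaurentSeries Qb) := e.symm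
    rw [this]
    exact (a : FBar (M * q)).2
  have ea : (a : FBar (M * q)) = ⟨toL A g, hy⟩ := Subtype.ext e
  constructor
  · show (a : FBar (M * q)) ∈ (gaussOne M q A hqM hA).O
    rw [ea]
    exact (isGaussOne_gaussOne M q A hqM hA).mem g hy
  · rw [ofGauss_redF, gaussOneK_redF, ea, thetaRes_apply,
      (isGaussOne_gaussOne M q A hqM hA).red g hy]
    rfl

variable (hι : ∀ x : fixF (M * q) (A.inertiaSubgroupIn ℚ), x ≠ 0 →
  HasGaussRatio A (stdFix (M * q) (A.inertiaSubgroupIn ℚ)) x)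

/-- **(I1)** -/
theorem gaussOneK_O_eq :
    (ofGauss (gaussOneK M q A hqM hA)).O =
      gaussVS A (stdFix (M * q) (A.inertiaSubgroupIn ℚ)) hι :=
  place_O_eq_gaussVS A _ (ofGauss (gaussOneK M q A hqM hA)) (thetaRes A M)
    (hint_gaussOneK M q A hqM hA) hι
    (hasModRatio_stdFix (M * q) (A.inertiaSubgroupIn ℚ) A hq.out hA le_rfl)

/-- **(I1)** -/
theorem gaussOneK_redF_eq (x : fixF (M * q) (A.inertiaSubgroupIn ℚ)) :
    (((ofGauss (gaussOneK M q A hqM hA)).redF x : FRes A M) : LaurentSeries kA) =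
      (((gaussPlace A (stdFix (M * q) (A.inertiaSubgroupIn ℚ)) hι).redF x :
        gaussResidue A (stdFix (M * q) (A.inertiaSubgroupIn ℚ)) hι) : LaurentSeries kA) :=
  place_redF_eq_gauss A _ (ofGauss (gaussOneK M q A hqM hA)) (thetaRes A M)
    (hint_gaussOneK M q A hqM hA) hι
    (hasModRatio_stdFix (M * q) (A.inertiaSubgroupIn ℚ) A hq.out hA le_rfl) x

/-- the standard expansion after `w_q` -/
def stdW : fixF (M * q) (A.inertiaSubgroupIn ℚ) →+* LaurentSeries Qb :=
  (stdFix (M * q) (A.inertiaSubgroupIn ℚ)).comp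
    (Fermat.Agent.S36lib.Mid.wqFix M q hq.out hqM (A.inertiaSubgroupIn ℚ))

theorem stdW_apply (x : fixF (M * q) (A.inertiaSubgroupIn ℚ)) :
    stdW M q A hqM x = ((wq M q hq.out hqM (x : FBar (M * q)) : FBar (M * q)) :
      LaurentSeries Qb) := rfl

include hA in
theorem hasGaussRatio_stdW (x : fixF (M * q) (A.inertiaSubgroupIn ℚ)) (hx : x ≠ 0) :
    HasGaussRatio A (stdW M q A hqM) x :=
  hasGaussRatio_comp_right_all A _ _
    (hasGaussRatio_stdFix (M * q) (A.inertiaSubgroupIn ℚ) A hq.out hA le_rfl) x hx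

variable (hι₂ : ∀ x : fixF (M * q) (A.inertiaSubgroupIn ℚ), x ≠ 0 →
  HasGaussRatio A (stdW M q A hqM) x)

/-- **(I2)** the valuation ring of `gaussTwoK` is the Gauss valuation ring of `std ∘ w_q` -/
theorem gaussTwoK_O_eq :
    (ofGauss (gaussTwoK M q A hqM hA)).O = gaussVS A (stdW M q A hqM) hι₂ := by
  have h1 := gaussOneK_O_eq M q A hqM hA
    (hasGaussRatio_stdFix (M * q) (A.inertiaSubgroupIn ℚ) A hq.out hA le_rfl)
  ext x
  have e1 : x ∈ (ofGauss (gaussTwoK M q A hqM hA)).O ↔
      Fermat.Agent.S36lib.Mid.wqFix M q hq.out hqM (A.inertiaSubgroupIn ℚ) x ∈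
        (ofGauss (gaussOneK M q A hqM hA)).O :=
    (isGaussTwo_gaussTwo M q A hqM hA).mem_iff (x : FBar (M * q))
  rw [e1, h1]
  rfl

/-- **(I2)** the reduction of `gaussTwoK` is the Gauss reduction of `std ∘ w_q` -/
theorem gaussTwoK_redF_eq (x : fixF (M * q) (A.inertiaSubgroupIn ℚ)) :
    (((ofGauss (gaussTwoK M q A hqM hA)).redF x : FRes A M) : LaurentSeries kA) =
      (((gaussPlace A (stdW M q A hqM) hι₂).redF x : gaussResidue A (stdW M q A hqM) hι₂) :
        LaurentSeries kA) := by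
  have hι₁ := hasGaussRatio_stdFix (M * q) (A.inertiaSubgroupIn ℚ) A hq.out hA le_rfl
  have e1 : (ofGauss (gaussTwoK M q A hqM hA)).redF x =
      (ofGauss (gaussOneK M q A hqM hA)).redF
        (Fermat.Agent.S36lib.Mid.wqFix M q hq.out hqM (A.inertiaSubgroupIn ℚ) x) := by
    rw [ofGauss_redF, ofGauss_redF, gaussTwoK_redF, gaussOneK_redF]
    exact (isGaussTwo_gaussTwo M q A hqM hA).redF (x : FBar (M * q))
  rw [e1, gaussOneK_redF_eq M q A hqM hA hι₁]
  exact (gaussPlace_comp_right_redF A _ _ hι₁ hι₂ x).symm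

end LevelMq

end Fermat.Agent.S45lib.Tower
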