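/-
S45lib / Tower / ZetaSys  (helper2)  --  Project J, (KM) tower: a compatible system of primitive
`q^b`-th roots of unity.

* `isPrimitiveRoot_of_pow_prime` : a `q`-th root of a primitive `q^b`-th root of unity (`b ≥ 1`) is
  a primitive `q^(b+1)`-th root of unity;
* `zetaSeq L q : ℕ → Lˣ` (`L` algebraically closed of characteristic zero, `q` prime) with
  `zetaSeq_zero : zetaSeq L q 0 = 1`, `zetaSeq_pow : zetaSeq L q (b+1) ^ q = zetaSeq L q b`,
  `isPrimitiveRoot_zetaSeq : IsPrimitiveRoot (zetaSeq L q b) (q ^ b)`,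
  `zetaSeq_pow_pow : zetaSeq L q (b + c) ^ q ^ c = zetaSeq L q b`;
* `zetaK q b := zetaSeq ℚ̄ q b`.
-/
import Mathlib

set_option autoImplicit false
set_option linter.unusedSectionVars false
set_option linter.style.haveILetI false

noncomputable section

namespace Fermat.Agent.S45lib.Tower

section Monoid

variable {G : Type*} [CommMonoid G]

/-- a `q`-th root of a primitive `q^b`-th root of unity, `b ≥ 1`, is primitive of order
`q^(b+1)` -/
theorem isPrimitiveRoot_of_pow_prime {q : ℕ} (hq : q.Prime) {b : ℕ} (hb : 0 < b) {w z : G}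
    (hwz : w ^ q = z) (hz : IsPrimitiveRoot z (q ^ b)) : IsPrimitiveRoot w (q ^ (b + 1)) := by
  rw [IsPrimitiveRoot.iff_orderOf]
  have h1 : w ^ (q ^ (b + 1)) = 1 := by
    rw [pow_succ', pow_mul, hwz]
    exact hz.pow_eq_one
  obtain ⟨j, hj, hjo⟩ := (Nat.dvd_prime_pow hq).1 (orderOf_dvd_of_pow_eq_one h1)
  rcases Nat.lt_or_ge j (b + 1) with hlt | hge
  · exfalso
    have h2 : w ^ (q ^ b) = 1 := by
      have hdvd : orderOf w ∣ q ^ b := by
        rw [hjo]
        exact pow_dvd_pow q (by omega)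
      exact orderOf_dvd_iff_pow_eq_one.1 hdvd
    have h3 : z ^ (q ^ (b - 1)) = 1 := by
      rw [← hwz, ← pow_mul, ← pow_succ']
      have : b - 1 + 1 = b := by omega
      rw [this]
      exact h2
    have h4 := (hz.pow_eq_one_iff_dvd _).1 h3
    have h5 : b ≤ b - 1 := (Nat.pow_dvd_pow_iff_le_right hq.one_lt).1 h4
    omega
  · rw [hjo]
    congr 1
    omega

end Monoid

section Field

variable (L : Type*) [Field L] [IsAlgClosed L] [CharZero L]

theorem exists_unit_pow_eq {q : ℕ} (hq : 0 < q) (z : Lˣ) : ∃ w : Lˣ, w ^ q = z := by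
  obtain ⟨w, hw⟩ := IsAlgClosed.exists_pow_nat_eq (z : L) hq
  have hw0 : w ≠ 0 := by
    rintro rfl
    rw [zero_pow hq.ne'] at hw
    exact z.ne_zero hw.symm
  refine ⟨Units.mk0 w hw0, ?_⟩
  apply Units.ext
  rw [Units.val_pow_eq_pow_val, Units.val_mk0, hw]

theorem exists_unit_primitiveRoot {q : ℕ} (hq : q.Prime) : ∃ w : Lˣ, IsPrimitiveRoot w q := by
  haveI : NeZero q := ⟨hq.ne_zero⟩
  obtain ⟨ζ, hζ⟩ := HasEnoughRootsOfUnity.exists_primitiveRoot L q
  have h0 : ζ ≠ 0 := hζ.ne_zero hq.ne_zero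
  exact ⟨Units.mk0 ζ h0, IsPrimitiveRoot.coe_units_iff.1 (by rw [Units.val_mk0]; exact hζ)⟩

/-- a compatible system of primitive `q^b`-th roots of unity -/
def zetaSeq (q : ℕ) [hq : Fact q.Prime] : ℕ → Lˣ
  | 0 => 1
  | 1 => Classical.choose (exists_unit_primitiveRoot L hq.out)
  | b + 2 => Classical.choose (exists_unit_pow_eq L hq.out.pos (zetaSeq q (b + 1)))

variable (q : ℕ) [hq : Fact q.Prime]

@[simp] theorem zetaSeq_zero : zetaSeq L q 0 = 1 := rfl

theorem isPrimitiveRoot_zetaSeq_one : IsPrimitiveRoot (zetaSeq L q 1) q :=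
  Classical.choose_spec (exists_unit_primitiveRoot L hq.out)

/-- **compatibility** -/
theorem zetaSeq_pow (b : ℕ) : zetaSeq L q (b + 1) ^ q = zetaSeq L q b := by
  cases b with
  | zero => exact (isPrimitiveRoot_zetaSeq_one L q).pow_eq_one
  | succ b => exact Classical.choose_spec (exists_unit_pow_eq L hq.out.pos (zetaSeq L q (b + 1)))

/-- **primitivity** -/
theorem isPrimitiveRoot_zetaSeq (b : ℕ) : IsPrimitiveRoot (zetaSeq L q b) (q ^ b) := by
  induction b with
  | zero =>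
    rw [pow_zero, zetaSeq_zero]
    exact IsPrimitiveRoot.one
  | succ b ih =>
    rcases Nat.eq_zero_or_pos b with rfl | hb
    · rw [zero_add, pow_one]
      exact isPrimitiveRoot_zetaSeq_one L q
    · exact isPrimitiveRoot_of_pow_prime hq.out hb (zetaSeq_pow L q b) ih

theorem zetaSeq_pow_pow (b c : ℕ) : zetaSeq L q (b + c) ^ q ^ c = zetaSeq L q b := by
  induction c with
  | zero => rw [pow_zero, pow_one, add_zero]
  | succ c ih => rw [← add_assoc, pow_succ', pow_mul, zetaSeq_pow, ih]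

theorem zetaSeq_pow_order (b : ℕ) : zetaSeq L q b ^ q ^ b = 1 :=
  (isPrimitiveRoot_zetaSeq L q b).pow_eq_one

end Field

/-- the compatible system of primitive `q^b`-th roots of unity of `ℚ̄` -/
def zetaK (q : ℕ) [Fact q.Prime] (b : ℕ) : (AlgebraicClosure ℚ)ˣ := zetaSeq (AlgebraicClosure ℚ) q b

theorem zetaK_zero (q : ℕ) [Fact q.Prime] : zetaK q 0 = 1 := rfl

theorem zetaK_pow (q : ℕ) [Fact q.Prime] (b : ℕ) : zetaK q (b + 1) ^ q = zetaK q b :=
  zetaSeq_pow _ q b

theorem isPrimitiveRoot_zetaK (q : ℕ) [Fact q.Prime] (b : ℕ) :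
    IsPrimitiveRoot (zetaK q b) (q ^ b) :=
  isPrimitiveRoot_zetaSeq _ q b

theorem zetaK_pow_pow (q : ℕ) [Fact q.Prime] (b c : ℕ) : zetaK q (b + c) ^ q ^ c = zetaK q b :=
  zetaSeq_pow_pow _ q b c

/-- existence form -/
theorem exists_zetaSys (q : ℕ) [Fact q.Prime] :
    ∃ ζ : ℕ → (AlgebraicClosure ℚ)ˣ, (∀ b, IsPrimitiveRoot (ζ b) (q ^ b)) ∧
      ∀ b, ζ (b + 1) ^ q = ζ b :=
  ⟨zetaK q, isPrimitiveRoot_zetaK q, zetaK_pow q⟩

end Fermat.Agent.S45lib.Tower
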